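import Mathlib

/-!
# S41 / Ihara's lemma, elementary form: definitions

Ihara's lemma (the kernel of the two degeneracy maps `Hom(Γ₀(N), V)² → Hom(Γ₀(Nq), V)`, `p V = 0`,
consists of homomorphisms that kill `Γ₁(N)`) is proved here WITHOUT the group `Γ₀(N)[1/q]`,
its amalgam decomposition or the congruence subgroup property, only with integer matrices.

This file fixes the two interfaces of the proof:

* `IsG0Hom N F` : `F a b c d` is "a homomorphism on `Γ₀(N)`" written on the four entries of a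
  matrix (`a d - b c = 1`, `N ∣ c`);
* `IsIharaSymbol N q S κ` : the axioms of the symbol `S a b = φ₁ (any matrix of Γ₀(N) with first
  row (a, b))` used by the arithmetic part of the proof:
  - `shiftR`, `shiftL` : elementary column operations,
  - `one` : `S 1 b = 0`,
  - `mulq` : `S (q² a) b = S a b + κ` (this replaces conjugation by `diag(q, q⁻¹)`),
  - `prod` : the product of two matrices with the same upper right entry `b`.
-/

set_option autoImplicit false

namespace Fermat.Agent.S41.Ihara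

/-- `F a b c d` behaves like a homomorphism on `Γ₀(N)` (written on matrix entries). -/
structure IsG0Hom (N : ℕ) {V : Type*} [AddCommGroup V] (F : ℤ → ℤ → ℤ → ℤ → V) : Prop where
  mul : ∀ a b c d a' b' c' d' : ℤ, a * d - b * c = 1 → (N : ℤ) ∣ c → a' * d' - b' * c' = 1 →
    (N : ℤ) ∣ c' →
    F (a * a' + b * c') (a * b' + b * d') (c * a' + d * c') (c * b' + d * d')
      = F a b c d + F a' b' c' d'

/-- The axioms of the Ihara–Mennicke symbol. -/
structure IsIharaSymbol (N q : ℕ) {V : Type*} [AddCommGroup V] (S : ℤ → ℤ → V) (κ : V) :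
    Prop where
  shiftR : ∀ a b x : ℤ, IsCoprime a ((N : ℤ) * b) → S a (b + x * a) = S a b
  shiftL : ∀ a b x : ℤ, IsCoprime a ((N : ℤ) * b) → S (a + (N : ℤ) * x * b) b = S a b
  one : ∀ b : ℤ, S 1 b = 0
  mulq : ∀ a b : ℤ, IsCoprime a ((N : ℤ) * b) → IsCoprime (q : ℤ) b →
    S ((q : ℤ) ^ 2 * a) b = S a b + κ
  prod : ∀ a₁ a₂ d₂ c₂ b : ℤ, IsCoprime a₁ ((N : ℤ) * b) → a₂ * d₂ - (N : ℤ) * b * c₂ = 1 →
    S a₁ b + S a₂ b = S (a₂ * (a₁ + d₂) - 1) (b * (a₁ + d₂))

end Fermat.Agent.S41.Ihara
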