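import Mathlib
import Fermat.Agent.S41.Coh.CorSys

/-!
# S41 / WP-B3 : homomorphisms of `Γ₀(N)` trivial on `Γ₁(N)` are Eisenstein; the IHARA hypothesis

* `heckeCoh_eq_smul_of_Gamma1` : if `φ : Γ₀(N) → A` is a homomorphism trivial on `Γ₁(N)`, then
  `T_ℓ φ = (ℓ + 1) • φ` for EVERY prime `ℓ ∤ N` (cycle count: `φ(γ)` depends only on the
  lower-right entry of `γ` modulo `N`; along the permutation of the `ℓ + 1` cosets the entry is
  multiplied by `ℓ` and divided by `ℓ` the same number of times).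
* `IharaKills N q V` : the statement of Ihara's lemma in the elementary form
  ("two parabolic homomorphisms `φ₁, φ₂ : Γ₀(N) → V` with `φ₁(η X η⁻¹) = φ₂(X)` on `Γ₀(N q)`,
  `η = diag(q, 1)`, are trivial on `Γ₁(N)`"); it is a HYPOTHESIS of this file.
* `kills_Gamma1_of_res_add_wres` : under `IharaKills N q V`, two parabolic homomorphisms
  `x, y : Γ₀(N) → V` with `res x + w (res y) = 0` are trivial on `Γ₁(N)`.
* `ihara_int` : the IHARA hypothesis of `S41/Core.lean` for integer-valued homomorphisms: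
  `res x + w (res y) = p • z  ⟹  T_ℓ x - (ℓ + 1) x ∈ p • Hom(Γ₀(N), ℤ)` and the same for `y`;
  `ihara_int_pe` is the version inside the parabolic-elliptic homomorphisms.
-/

set_option autoImplicit false

open scoped MatrixGroups
open CongruenceSubgroup ModularForm ModularCurve.Period

namespace Fermat.Agent.S41.Ihara.Eis

open Fermat.Agent.ESJ.ParHom Fermat.Agent.S41.Coh

noncomputable section

/-! ### The lower-right entry modulo `N` -/

/-- The lower-right entry modulo `N` is multiplicative on `Γ₀(N)`. -/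
theorem d_mul {N : ℕ} {x : SL(2, ℤ)} (y : SL(2, ℤ)) (hx : x ∈ Gamma0 N) :
    (((x * y) 1 1 : ℤ) : ZMod N) = ((x 1 1 : ℤ) : ZMod N) * ((y 1 1 : ℤ) : ZMod N) := by
  have h0 : ((x 1 0 : ℤ) : ZMod N) = 0 := Gamma0_mem.mp hx
  rw [Matrix.SpecialLinearGroup.coe_mul, Matrix.mul_apply, Fin.sum_univ_two]
  push_cast
  rw [h0, zero_mul, zero_add]

/-- Two elements of `Γ₀(N)` with the same lower-right entry modulo `N` differ by an element of
`Γ₁(N)`. -/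
theorem mul_inv_mem_Gamma1 {N : ℕ} {x y : SL(2, ℤ)} (hx : x ∈ Gamma0 N) (hy : y ∈ Gamma0 N)
    (h : ((x 1 1 : ℤ) : ZMod N) = ((y 1 1 : ℤ) : ZMod N)) : x * y⁻¹ ∈ Gamma1 N := by
  have hx0 : ((x 1 0 : ℤ) : ZMod N) = 0 := Gamma0_mem.mp hx
  have hy0 : ((y 1 0 : ℤ) : ZMod N) = 0 := Gamma0_mem.mp hy
  have hdx : ((x 0 0 : ℤ) : ZMod N) * ((x 1 1 : ℤ) : ZMod N) = 1 := by
    have hd := x.det_coe
    rw [Matrix.det_fin_two] at hd
    have hd' := congrArg (Int.cast : ℤ → ZMod N) hd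
    push_cast at hd'
    rw [hx0, mul_zero, sub_zero] at hd'
    exact hd'
  have hdy : ((y 0 0 : ℤ) : ZMod N) * ((y 1 1 : ℤ) : ZMod N) = 1 := by
    have hd := y.det_coe
    rw [Matrix.det_fin_two] at hd
    have hd' := congrArg (Int.cast : ℤ → ZMod N) hd
    push_cast at hd'
    rw [hy0, mul_zero, sub_zero] at hd'
    exact hd'
  rw [Gamma1_mem]
  simp only [Matrix.SpecialLinearGroup.coe_mul, Matrix.SpecialLinearGroup.coe_inv,
    Matrix.adjugate_fin_two, Matrix.mul_apply, Fin.sum_univ_two, Matrix.of_apply,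
    Matrix.cons_val', Matrix.cons_val_zero, Matrix.cons_val_one, Matrix.empty_val',
    Matrix.cons_val_fin_one]
  push_cast
  refine ⟨?_, ?_, ?_⟩
  · rw [hy0, ← h]
    linear_combination hdx
  · rw [hx0, h]
    linear_combination hdy
  · rw [hx0, hy0]
    ring

/-- A homomorphism trivial on `Γ₁(N)` depends only on the lower-right entry modulo `N`. -/
theorem apply_eq_of_d_eq {N : ℕ} {A : Type*} [AddCommGroup A] (φ : Additive (Gamma0 N) →+ A)
    (hφ : ∀ γ : Gamma0 N, (γ : SL(2, ℤ)) ∈ Gamma1 N → φ (Additive.ofMul γ) = 0)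
    (x y : Gamma0 N)
    (h : (((x : SL(2, ℤ)) 1 1 : ℤ) : ZMod N) = (((y : SL(2, ℤ)) 1 1 : ℤ) : ZMod N)) :
    φ (Additive.ofMul x) = φ (Additive.ofMul y) := by
  have h1 := hφ (x * y⁻¹) (mul_inv_mem_Gamma1 x.2 y.2 h)
  rw [ofMul_mul, ofMul_inv, map_add, map_neg, ← sub_eq_add_neg, sub_eq_zero] at h1
  exact h1

/-! ### The representatives of `T_ℓ` -/

/-- The integral matrix of `tRep ℓ x`. -/
def tInt (ℓ : ℕ) (x : OnePoint (ZMod ℓ)) : Matrix (Fin 2) (Fin 2) ℤ :=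
  x.elim !![(ℓ : ℤ), 0; 0, 1] (fun j => !![1, (j.val : ℤ); 0, (ℓ : ℤ)])

theorem isIntGL_tRep {ℓ : ℕ} (hℓ : ℓ ≠ 0) (x : OnePoint (ZMod ℓ)) :
    IsIntGL (tRep ℓ x) (tInt ℓ x) := by
  induction x using OnePoint.rec with
  | infty => exact isIntGL_heckeDiagMatrix hℓ
  | coe j => exact isIntGL_heckeMatrix hℓ j.val

theorem tInt_apply_10 (ℓ : ℕ) (x : OnePoint (ZMod ℓ)) : tInt ℓ x 1 0 = 0 := by
  induction x using OnePoint.rec with
  | infty => rfl
  | coe j => rfl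

/-- The lower-right entries in the relation `a_x γ = γ' a_x'`. -/
theorem d_relation {N ℓ : ℕ} (hℓ : ℓ ≠ 0) {γ γ' : SL(2, ℤ)} (hγ' : γ' ∈ Gamma0 N)
    (x x' : OnePoint (ZMod ℓ))
    (e : tRep ℓ x * Matrix.SpecialLinearGroup.mapGL ℝ γ
      = Matrix.SpecialLinearGroup.mapGL ℝ γ' * tRep ℓ x') :
    ((tInt ℓ x 1 1 : ℤ) : ZMod N) * ((γ 1 1 : ℤ) : ZMod N)
      = ((γ' 1 1 : ℤ) : ZMod N) * ((tInt ℓ x' 1 1 : ℤ) : ZMod N) := by
  have e1 := IsIntGL.eq ((isIntGL_tRep hℓ x).mul (isIntGL_mapGL γ))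
    ((isIntGL_mapGL γ').mul (isIntGL_tRep hℓ x')) e
  have e2 := congrFun (congrFun e1 1) 1
  rw [Matrix.mul_apply, Matrix.mul_apply, Fin.sum_univ_two, Fin.sum_univ_two,
    tInt_apply_10, zero_mul, zero_add] at e2
  have h0 : ((γ' 1 0 : ℤ) : ZMod N) = 0 := Gamma0_mem.mp hγ'
  have e3 := congrArg (Int.cast : ℤ → ZMod N) e2
  push_cast at e3
  rw [h0, zero_mul, zero_add] at e3
  exact e3

/-- Elements of `Γ₀(N)` with the same lower-right entries modulo `N` as the representatives. -/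
def dRep (N ℓ : ℕ) (x : OnePoint (ZMod ℓ)) : SL(2, ℤ) :=
  x.elim 1 (fun _ => (gam0 N ℓ)⁻¹)

theorem dRep_mem {N ℓ : ℕ} (h : Nat.Coprime ℓ N) (x : OnePoint (ZMod ℓ)) :
    dRep N ℓ x ∈ Gamma0 N := by
  induction x using OnePoint.rec with
  | infty => exact one_mem _
  | coe j => exact inv_mem (gam0_mem h)

theorem dRep_apply_11 {N ℓ : ℕ} (h : Nat.Coprime ℓ N) (x : OnePoint (ZMod ℓ)) :
    (dRep N ℓ x) 1 1 = tInt ℓ x 1 1 := by
  induction x using OnePoint.rec with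
  | infty => rfl
  | coe j =>
    show ((gam0 N ℓ)⁻¹ : SL(2, ℤ)) 1 1 = (ℓ : ℤ)
    rw [Matrix.SpecialLinearGroup.coe_inv, Matrix.adjugate_fin_two, coe_gam0 h, gam0Mat]
    rfl

/-! ### `T_ℓ = ℓ + 1` on the homomorphisms trivial on `Γ₁(N)` -/

/-- **Eisenstein property.** A homomorphism `Γ₀(N) → A` which is trivial on `Γ₁(N)` satisfies
`T_ℓ φ = (ℓ + 1) φ` for every prime `ℓ ∤ N`. -/
theorem heckeCoh_eq_smul_of_Gamma1 {N ℓ : ℕ} [Fact ℓ.Prime] (hℓN : ¬ ℓ ∣ N) {A : Type*}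
    [AddCommGroup A] (φ : Additive (Gamma0 N) →+ A)
    (hφ : ∀ γ : Gamma0 N, (γ : SL(2, ℤ)) ∈ Gamma1 N → φ (Additive.ofMul γ) = 0) :
    heckeCoh N ⟨ℓ, Fact.out⟩ φ = (ℓ + 1) • φ := by
  classical
  have hℓ : ℓ ≠ 0 := (Fact.out : ℓ.Prime).ne_zero
  have hcop : Nat.Coprime ℓ N := ((Fact.out : ℓ.Prime).coprime_iff_not_dvd).mpr hℓN
  rw [heckeCoh_of_not_dvd N hℓN]
  have h := isHeckeSystem_T N hℓN
  refine AddMonoidHom.ext fun γ => ?_
  obtain ⟨γ, rfl⟩ := Additive.ofMul.surjective γ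
  rw [h.hecke_apply]
  let w : OnePoint (ZMod ℓ) → A := fun x =>
    φ (Additive.ofMul (⟨dRep N ℓ x, dRep_mem hcop x⟩ : Gamma0 N))
  have key : ∀ x, φ (Additive.ofMul (h.coc γ x))
      = φ (Additive.ofMul γ) + w x - w (h.perm γ x) := by
    intro x
    have e := h.spec γ x
    have hd := d_relation (N := N) hℓ (h.coc γ x).2 x (h.perm γ x) e
    have h2 : φ (Additive.ofMul (h.coc γ x * ⟨dRep N ℓ (h.perm γ x), dRep_mem hcop _⟩))
        = φ (Additive.ofMul (γ * ⟨dRep N ℓ x, dRep_mem hcop x⟩)) := by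
      apply apply_eq_of_d_eq φ hφ
      rw [Subgroup.coe_mul, Subgroup.coe_mul, d_mul _ (h.coc γ x).2, d_mul _ γ.2,
        dRep_apply_11 hcop, dRep_apply_11 hcop, ← hd, mul_comm]
      rfl
    rw [ofMul_mul, ofMul_mul, map_add, map_add] at h2
    rw [eq_sub_iff_add_eq]
    exact h2
  have hperm : ∑ x, w (h.perm γ x) = ∑ x, w x := Equiv.sum_comp (h.permEquiv γ) w
  have hcard : Fintype.card (OnePoint (ZMod ℓ)) = ℓ + 1 :=
    (Fintype.card_option).trans (by rw [ZMod.card])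
  simp only [key, Finset.sum_sub_distrib, Finset.sum_add_distrib, Finset.sum_const,
    Finset.card_univ]
  rw [hperm, add_sub_cancel_right, hcard]
  rfl

/-! ### Ihara's lemma as a hypothesis, and its consequence for `res + w ∘ res` -/

/-- **Ihara's lemma, elementary form** (the statement proved in `S41/Ihara` by the symbol
calculus): two homomorphisms `φ₁, φ₂ : Γ₀(N) → V` (given as functions on `SL(2, ℤ)`) which kill
the parabolic elements and satisfy `φ₁(η X η⁻¹) = φ₂(X)` for `X ∈ Γ₀(N q)`, `η = diag(q, 1)`,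
are trivial on `Γ₁(N)`. -/
def IharaKills (N q : ℕ) (V : Type*) [AddCommGroup V] : Prop :=
  ∀ φ₁ φ₂ : SL(2, ℤ) → V,
    (∀ X ∈ Gamma0 N, ∀ Y ∈ Gamma0 N, φ₁ (X * Y) = φ₁ X + φ₁ Y) →
    (∀ X ∈ Gamma0 N, ∀ Y ∈ Gamma0 N, φ₂ (X * Y) = φ₂ X + φ₂ Y) →
    (∀ X ∈ Gamma0 N, (X : Matrix (Fin 2) (Fin 2) ℤ).trace ^ 2 = 4 → φ₁ X = 0) →
    (∀ X ∈ Gamma0 N, (X : Matrix (Fin 2) (Fin 2) ℤ).trace ^ 2 = 4 → φ₂ X = 0) →
    (∀ X ∈ Gamma0 (N * q), ∀ X' ∈ Gamma0 N, X' 0 0 = X 0 0 → X' 0 1 = (q : ℤ) * X 0 1 →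
      (q : ℤ) * X' 1 0 = X 1 0 → X' 1 1 = X 1 1 → φ₁ X' = φ₂ X) →
    ∀ X ∈ Gamma1 N, φ₁ X = 0 ∧ φ₂ X = 0

/-- Extension by zero of a homomorphism of `Γ₀(N)` to a function on `SL(2, ℤ)`. -/
def extZero {N : ℕ} {V : Type*} [AddCommGroup V] (φ : Additive (Gamma0 N) →+ V)
    (X : SL(2, ℤ)) : V := by
  classical
  exact if h : X ∈ Gamma0 N then φ (Additive.ofMul (⟨X, h⟩ : Gamma0 N)) else 0

theorem extZero_of_mem {N : ℕ} {V : Type*} [AddCommGroup V] (φ : Additive (Gamma0 N) →+ V)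
    {X : SL(2, ℤ)} (h : X ∈ Gamma0 N) :
    extZero φ X = φ (Additive.ofMul (⟨X, h⟩ : Gamma0 N)) := by
  classical
  rw [extZero, dif_pos h]

theorem extZero_mul {N : ℕ} {V : Type*} [AddCommGroup V] (φ : Additive (Gamma0 N) →+ V)
    {X Y : SL(2, ℤ)} (hX : X ∈ Gamma0 N) (hY : Y ∈ Gamma0 N) :
    extZero φ (X * Y) = extZero φ X + extZero φ Y := by
  rw [extZero_of_mem φ hX, extZero_of_mem φ hY, extZero_of_mem φ (mul_mem hX hY), ← map_add]
  rfl

theorem diagConj_mem {N q : ℕ} (hq : q ≠ 0) {γ : SL(2, ℤ)} (hγ : γ ∈ Gamma0 (N * q)) :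
    diagConj q γ ∈ Gamma0 N := by
  apply mem_Gamma0_of_dvd
  obtain ⟨c, hc⟩ := dvd_of_mem_Gamma0 hγ
  have hq' : (q : ℤ) ≠ 0 := by exact_mod_cast hq
  have hγq : (q : ℤ) ∣ γ 1 0 := ⟨N * c, by rw [hc]; push_cast; ring⟩
  have e1 : γ 1 0 / (q : ℤ) = N * c := by
    rw [hc]
    push_cast
    rw [show (N : ℤ) * q * c = q * (N * c) by ring, Int.mul_ediv_cancel_left _ hq']
  have e2 : (diagConj q γ) 1 0 = γ 1 0 / (q : ℤ) := by
    have e := congrFun (congrFun (coe_diagConj hγq) 1) 0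
    rw [e]
    rfl
  rw [e2, e1]
  exact dvd_mul_right _ _

/-- `(w (res y))(γ) = y(η γ η⁻¹)` for `γ ∈ Γ₀(N q)`, `η = diag(q, 1)`. -/
theorem wCoh_resCoh_apply {N q : ℕ} (h : Nat.Coprime q N) (hq : q ≠ 0) {V : Type*}
    [AddCommGroup V] (y : Additive (Gamma0 N) →+ V) (γ : Gamma0 (N * q)) :
    wCoh N q (resCoh N q y) (Additive.ofMul γ)
      = y (Additive.ofMul (⟨diagConj q γ, diagConj_mem hq γ.2⟩ : Gamma0 N)) := by
  have hγq : (q : ℤ) ∣ (γ : SL(2, ℤ)) 1 0 :=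
    (Int.natCast_dvd_natCast.mpr (Dvd.intro_left N rfl)).trans (dvd_of_mem_Gamma0 γ.2)
  have hm : mRep N q 0 ∈ Gamma0 N := mRep_mem_Gamma0 h 0
  have hd : diagConj q (γ : SL(2, ℤ)) ∈ Gamma0 N := diagConj_mem hq γ.2
  have hw : wConj N q (γ : SL(2, ℤ)) ∈ Gamma0 N := mul_mem (mul_mem hm hd) (inv_mem hm)
  rw [wCoh_resCoh_eq h hq,
    (wResSys h hq).op_apply_of y γ id (fun _ => (⟨wConj N q γ, hw⟩ : Gamma0 N))
      (fun _ => wMat_mul_mapGL h hq hγq)]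
  rw [Finset.sum_const, Finset.card_univ, Fintype.card_unit, one_smul]
  have e : (⟨wConj N q γ, hw⟩ : Gamma0 N)
      = ⟨mRep N q 0, hm⟩ * ⟨diagConj q γ, hd⟩ * (⟨mRep N q 0, hm⟩ : Gamma0 N)⁻¹ := rfl
  rw [e, ofMul_mul, ofMul_mul, ofMul_inv, map_add, map_add, map_neg]
  abel

/-- Under Ihara's lemma, two parabolic homomorphisms `x, y : Γ₀(N) → V` with
`res x + w (res y) = 0` are trivial on `Γ₁(N)`. -/
theorem kills_Gamma1_of_res_add_wres {N q : ℕ} [Fact q.Prime] (hqN : ¬ q ∣ N) {V : Type*}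
    [AddCommGroup V] (hI : IharaKills N q V) (x y : Additive (Gamma0 N) →+ V)
    (hx : IsParabolicHom (Gamma0 N) x) (hy : IsParabolicHom (Gamma0 N) y)
    (hxy : resCoh N q x + wCoh N q (resCoh N q y) = 0) :
    (∀ γ : Gamma0 N, (γ : SL(2, ℤ)) ∈ Gamma1 N → x (Additive.ofMul γ) = 0) ∧
      (∀ γ : Gamma0 N, (γ : SL(2, ℤ)) ∈ Gamma1 N → y (Additive.ofMul γ) = 0) := by
  have hq : q ≠ 0 := (Fact.out : q.Prime).ne_zero
  have hq' : (q : ℤ) ≠ 0 := by exact_mod_cast hq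
  have hcop : Nat.Coprime q N := ((Fact.out : q.Prime).coprime_iff_not_dvd).mpr hqN
  have key := hI (extZero y) (extZero (-x))
    (fun X hX Y hY => extZero_mul y hX hY) (fun X hX Y hY => extZero_mul (-x) hX hY)
    (fun X hX ht => by rw [extZero_of_mem y hX]; exact hy ⟨X, hX⟩ ht)
    (fun X hX ht => by
      rw [extZero_of_mem (-x) hX, AddMonoidHom.neg_apply, hx ⟨X, hX⟩ ht, neg_zero])
    (by
      intro X hX X' hX' e00 e01 e10 e11
      have hXq : (q : ℤ) ∣ X 1 0 :=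
        (Int.natCast_dvd_natCast.mpr (Dvd.intro_left N rfl)).trans (dvd_of_mem_Gamma0 hX)
      have eX' : X' = diagConj q X := by
        apply Subtype.ext
        rw [coe_diagConj hXq, diagConjMat]
        ext i k
        fin_cases i <;> fin_cases k
        · exact e00
        · exact e01
        · show X' 1 0 = X 1 0 / (q : ℤ)
          rw [← e10, Int.mul_ediv_cancel_left _ hq']
        · exact e11
      have h1 := congrArg (fun f : Additive (Gamma0 (N * q)) →+ V =>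
        f (Additive.ofMul (⟨X, hX⟩ : Gamma0 (N * q)))) hxy
      simp only [AddMonoidHom.add_apply, AddMonoidHom.zero_apply] at h1
      rw [wCoh_resCoh_apply hcop hq, resCoh_apply] at h1
      rw [extZero_of_mem y hX', extZero_of_mem (-x) (Gamma0_mul_le N q hX),
        AddMonoidHom.neg_apply]
      have h2 : y (Additive.ofMul (⟨X', hX'⟩ : Gamma0 N))
          = y (Additive.ofMul (⟨diagConj q X, diagConj_mem hq hX⟩ : Gamma0 N)) := by
        congr 2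
        exact Subtype.ext eX'
      rw [h2]
      exact eq_neg_of_add_eq_zero_right h1)
  refine ⟨fun γ hγ => ?_, fun γ hγ => ?_⟩
  · have h1 := (key γ hγ).2
    rw [extZero_of_mem (-x) γ.2, AddMonoidHom.neg_apply, neg_eq_zero] at h1
    exact h1
  · have h1 := (key γ hγ).1
    rw [extZero_of_mem y γ.2] at h1
    exact h1

/-! ### The IHARA hypothesis of Core, for integer-valued homomorphisms -/

/-- A homomorphism to `ℤ` all of whose values are divisible by `p` is `p` times a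
homomorphism. -/
theorem exists_eq_smul_of_forall_dvd {G : Type*} [AddZeroClass G] (ψ : G →+ ℤ) {p : ℤ}
    (h : ∀ g, p ∣ ψ g) : ∃ ψ' : G →+ ℤ, ψ = p • ψ' := by
  refine ⟨AddMonoidHom.mk' (fun g => ψ g / p) (fun a b => ?_), ?_⟩
  · rw [map_add, Int.add_ediv_of_dvd_left (h a)]
  · refine AddMonoidHom.ext fun g => ?_
    show ψ g = p • (ψ g / p)
    rw [smul_eq_mul, Int.mul_ediv_cancel' (h g)]

/-- **IHARA (integral form).** Let `x, y : Γ₀(N) → ℤ` be parabolic homomorphisms with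
`res x + w (res y) ∈ p • Hom(Γ₀(N q), ℤ)`. Under Ihara's lemma for `ZMod p`, for every prime
`ℓ ∤ N`: `T_ℓ x - (ℓ + 1) x` and `T_ℓ y - (ℓ + 1) y` are divisible by `p`. -/
theorem ihara_int {N q p : ℕ} [Fact q.Prime] (hqN : ¬ q ∣ N) (hp : p ≠ 0)
    (hI : IharaKills N q (ZMod p)) {ℓ : ℕ} [Fact ℓ.Prime] (hℓN : ¬ ℓ ∣ N)
    (x y : Additive (Gamma0 N) →+ ℤ)
    (hx : IsParabolicHom (Gamma0 N) x) (hy : IsParabolicHom (Gamma0 N) y)
    (z : Additive (Gamma0 (N * q)) →+ ℤ)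
    (hxy : resCoh N q x + wCoh N q (resCoh N q y) = (p : ℤ) • z) :
    (∃ x' : Additive (Gamma0 N) →+ ℤ,
        heckeCoh N ⟨ℓ, Fact.out⟩ x - (ℓ + 1) • x = (p : ℤ) • x') ∧
      (∃ y' : Additive (Gamma0 N) →+ ℤ,
        heckeCoh N ⟨ℓ, Fact.out⟩ y - (ℓ + 1) • y = (p : ℤ) • y') := by
  have hp' : (p : ℤ) ≠ 0 := by exact_mod_cast hp
  set u : ℤ →+ ZMod p := Int.castAddHom (ZMod p) with hu
  -- reduction modulo `p`
  have hxb : IsParabolicHom (Gamma0 N) (u.comp x) := fun γ hγ => by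
    rw [AddMonoidHom.comp_apply, hx γ hγ, map_zero]
  have hyb : IsParabolicHom (Gamma0 N) (u.comp y) := fun γ hγ => by
    rw [AddMonoidHom.comp_apply, hy γ hγ, map_zero]
  have hred : resCoh N q (u.comp x) + wCoh N q (resCoh N q (u.comp y)) = 0 := by
    rw [resCoh_comp, resCoh_comp, wCoh_comp, ← AddMonoidHom.comp_add, hxy]
    refine AddMonoidHom.ext fun γ => ?_
    rw [AddMonoidHom.comp_apply, AddMonoidHom.smul_apply, AddMonoidHom.zero_apply, hu,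
      Int.coe_castAddHom, smul_eq_mul]
    push_cast
    rw [ZMod.natCast_self, zero_mul]
  obtain ⟨kx, ky⟩ := kills_Gamma1_of_res_add_wres hqN hI (u.comp x) (u.comp y) hxb hyb hred
  have hT : ∀ (f : Additive (Gamma0 N) →+ ℤ),
      (∀ γ : Gamma0 N, (γ : SL(2, ℤ)) ∈ Gamma1 N → (u.comp f) (Additive.ofMul γ) = 0) →
      ∃ f' : Additive (Gamma0 N) →+ ℤ,
        heckeCoh N ⟨ℓ, Fact.out⟩ f - (ℓ + 1) • f = (p : ℤ) • f' := by
    intro f kf
    have e1 := heckeCoh_eq_smul_of_Gamma1 hℓN (u.comp f) kf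
    rw [heckeCoh_comp N ⟨ℓ, Fact.out⟩ u f] at e1
    refine exists_eq_smul_of_forall_dvd (heckeCoh N ⟨ℓ, Fact.out⟩ f - (ℓ + 1) • f)
      fun γ => ?_
    have e2 := congrArg (fun g : Additive (Gamma0 N) →+ ZMod p => g γ) e1
    have e3 : ((heckeCoh N ⟨ℓ, Fact.out⟩ f γ : ℤ) : ZMod p) = (ℓ + 1) • ((f γ : ℤ) : ZMod p) := e2
    rw [← ZMod.intCast_zmod_eq_zero_iff_dvd, AddMonoidHom.sub_apply, AddMonoidHom.smul_apply,
      Int.cast_sub, e3, nsmul_eq_mul, nsmul_eq_mul]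
    push_cast
    ring
  exact ⟨hT x kx, hT y ky⟩

/-- **IHARA inside the parabolic-elliptic homomorphisms** (the lattices `L_M` of Core). -/
theorem ihara_int_pe {N q p : ℕ} [Fact q.Prime] (hqN : ¬ q ∣ N) (hp : p ≠ 0)
    (hI : IharaKills N q (ZMod p)) {ℓ : ℕ} [Fact ℓ.Prime] (hℓN : ¬ ℓ ∣ N)
    (x y : Additive (Gamma0 N) →+ ℤ)
    (hx : IsPEHom (Gamma0 N) x) (hy : IsPEHom (Gamma0 N) y)
    (z : Additive (Gamma0 (N * q)) →+ ℤ)
    (hxy : resCoh N q x + wCoh N q (resCoh N q y) = (p : ℤ) • z) :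
    (∃ x' : Additive (Gamma0 N) →+ ℤ, IsPEHom (Gamma0 N) x' ∧
        heckeCoh N ⟨ℓ, Fact.out⟩ x - (ℓ + 1) • x = (p : ℤ) • x') ∧
      (∃ y' : Additive (Gamma0 N) →+ ℤ, IsPEHom (Gamma0 N) y' ∧
        heckeCoh N ⟨ℓ, Fact.out⟩ y - (ℓ + 1) • y = (p : ℤ) • y') := by
  have hp' : (p : ℤ) ≠ 0 := by exact_mod_cast hp
  obtain ⟨⟨x', ex⟩, ⟨y', ey⟩⟩ := ihara_int hqN hp hI hℓN x y
    (fun γ hγ => hx γ hγ.le) (fun γ hγ => hy γ hγ.le) z hxy
  have hpe : ∀ (f f' : Additive (Gamma0 N) →+ ℤ), IsPEHom (Gamma0 N) f →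
      heckeCoh N ⟨ℓ, Fact.out⟩ f - (ℓ + 1) • f = (p : ℤ) • f' → IsPEHom (Gamma0 N) f' := by
    intro f f' hf e γ hγ
    have e1 := congrArg (fun g : Additive (Gamma0 N) →+ ℤ => g (Additive.ofMul γ)) e
    simp only [AddMonoidHom.sub_apply, AddMonoidHom.smul_apply] at e1
    rw [isPEHom_heckeCoh N ⟨ℓ, Fact.out⟩ hf γ hγ, hf γ hγ, smul_zero, sub_zero] at e1
    rcases mul_eq_zero.mp e1.symm with h0 | h0
    · exact absurd h0 hp'
    · exact h0
  exact ⟨⟨x', hpe x x' hx ex, ex⟩, ⟨y', hpe y y' hy ey, ey⟩⟩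

end

end Fermat.Agent.S41.Ihara.Eis
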