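import Mathlib
import Fermat.Agent.S41.Ihara.Defs
import Fermat.Agent.S41.Ihara.Eisenstein

/-!
# S41 / WP-B3 : from the entry form of Ihara's lemma to `IharaKills`

The elementary proof of Ihara's lemma (`S41/Ihara`) is stated for functions
`F : ℤ → ℤ → ℤ → ℤ → V` of the four entries of a matrix (`IsG0Hom N F`).  `IharaEntry N q V` is
that statement; `iharaKills_of_entry` converts it into the form `IharaKills N q V` (functions on
`SL(2, ℤ)`) consumed by `Eisenstein.lean`, and `ihara_pe_of_entry` is the resulting IHARA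
hypothesis of Core for the lattices of integer-valued parabolic-elliptic homomorphisms.
-/

set_option autoImplicit false

open scoped MatrixGroups
open CongruenceSubgroup ModularForm ModularCurve.Period

namespace Fermat.Agent.S41.Ihara.Eis

open Fermat.Agent.ESJ.ParHom Fermat.Agent.S41.Coh

noncomputable section

/-- **Ihara's lemma, entry form**: two "homomorphisms on `Γ₀(N)`" written on matrix entries which
kill `[[1,1],[0,1]]` and `[[1,0],[N,1]]` and satisfy the kernel relation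
`F₁ [[a, q b], [N c, d]] = F₂ [[a, b], [N q c, d]]` vanish on the matrices with `a ≡ 1 mod N`. -/
def IharaEntry (N q : ℕ) (V : Type*) [AddCommGroup V] : Prop :=
  ∀ F₁ F₂ : ℤ → ℤ → ℤ → ℤ → V, IsG0Hom N F₁ → IsG0Hom N F₂ →
    F₁ 1 1 0 1 = 0 → F₁ 1 0 N 1 = 0 → F₂ 1 1 0 1 = 0 → F₂ 1 0 N 1 = 0 →
    (∀ a b c d : ℤ, a * d - (N : ℤ) * q * b * c = 1 →
      F₁ a (q * b) (N * c) d = F₂ a b (N * q * c) d) →
    ∀ a b c d : ℤ, a * d - b * c = 1 → (N : ℤ) ∣ c → a ≡ 1 [ZMOD N] →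
      F₁ a b c d = 0 ∧ F₂ a b c d = 0

/-- The element of `SL(2, ℤ)` with given entries. -/
def slOfEntries (a b c d : ℤ) (h : a * d - b * c = 1) : SL(2, ℤ) :=
  ⟨!![a, b; c, d], by rw [Matrix.det_fin_two_of]; exact h⟩

@[simp] theorem slOfEntries_apply_00 (a b c d : ℤ) (h : a * d - b * c = 1) :
    slOfEntries a b c d h 0 0 = a := rfl

@[simp] theorem slOfEntries_apply_01 (a b c d : ℤ) (h : a * d - b * c = 1) :
    slOfEntries a b c d h 0 1 = b := rfl

@[simp] theorem slOfEntries_apply_10 (a b c d : ℤ) (h : a * d - b * c = 1) :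
    slOfEntries a b c d h 1 0 = c := rfl

@[simp] theorem slOfEntries_apply_11 (a b c d : ℤ) (h : a * d - b * c = 1) :
    slOfEntries a b c d h 1 1 = d := rfl

theorem slOfEntries_mem_Gamma0 {N : ℕ} {a b c d : ℤ} (h : a * d - b * c = 1) (hc : (N : ℤ) ∣ c) :
    slOfEntries a b c d h ∈ Gamma0 N :=
  mem_Gamma0_of_dvd hc

theorem slOfEntries_mul (a b c d a' b' c' d' : ℤ) (h : a * d - b * c = 1)
    (h' : a' * d' - b' * c' = 1)
    (h'' : (a * a' + b * c') * (c * b' + d * d') - (a * b' + b * d') * (c * a' + d * c') = 1) :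
    slOfEntries (a * a' + b * c') (a * b' + b * d') (c * a' + d * c') (c * b' + d * d') h''
      = slOfEntries a b c d h * slOfEntries a' b' c' d' h' := by
  apply Subtype.ext
  rw [Matrix.SpecialLinearGroup.coe_mul]
  ext i k
  fin_cases i <;> fin_cases k <;>
    simp [slOfEntries, Matrix.mul_apply, Fin.sum_univ_two]

/-- The entry function of a function on `SL(2, ℤ)` (`0` outside determinant one). -/
def entryFun {V : Type*} [AddCommGroup V] (φ : SL(2, ℤ) → V) (a b c d : ℤ) : V := by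
  classical
  exact if h : a * d - b * c = 1 then φ (slOfEntries a b c d h) else 0

theorem entryFun_eq {V : Type*} [AddCommGroup V] (φ : SL(2, ℤ) → V) {a b c d : ℤ}
    (h : a * d - b * c = 1) : entryFun φ a b c d = φ (slOfEntries a b c d h) := by
  classical
  rw [entryFun, dif_pos h]

theorem isG0Hom_entryFun {N : ℕ} {V : Type*} [AddCommGroup V] (φ : SL(2, ℤ) → V)
    (hφ : ∀ X ∈ Gamma0 N, ∀ Y ∈ Gamma0 N, φ (X * Y) = φ X + φ Y) : IsG0Hom N (entryFun φ) where
  mul a b c d a' b' c' d' h hc h' hc' := by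
    have h'' : (a * a' + b * c') * (c * b' + d * d') - (a * b' + b * d') * (c * a' + d * c') = 1 := by
      linear_combination (a' * d' - b' * c') * h + h'
    rw [entryFun_eq φ h'', entryFun_eq φ h, entryFun_eq φ h', slOfEntries_mul a b c d a' b' c' d' h h' h'']
    exact hφ _ (slOfEntries_mem_Gamma0 h hc) _ (slOfEntries_mem_Gamma0 h' hc')

/-- The entry form of Ihara's lemma implies the form on `SL(2, ℤ)`. -/
theorem iharaKills_of_entry {N q : ℕ} {V : Type*} [AddCommGroup V] (hE : IharaEntry N q V) :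
    IharaKills N q V := by
  intro φ₁ φ₂ h₁ h₂ hp₁ hp₂ hK X hX
  have htr : ∀ (a b c d : ℤ) (h : a * d - b * c = 1), a + d = 2 →
      ((slOfEntries a b c d h : SL(2, ℤ)) : Matrix (Fin 2) (Fin 2) ℤ).trace ^ 2 = 4 := by
    intro a b c d h had
    rw [Matrix.trace_fin_two]
    show (a + d) ^ 2 = 4
    rw [had]
    norm_num
  have hu : (1 : ℤ) * 1 - 1 * 0 = 1 := by norm_num
  have hl : (1 : ℤ) * 1 - 0 * (N : ℤ) = 1 := by norm_num
  have key := hE (entryFun φ₁) (entryFun φ₂) (isG0Hom_entryFun φ₁ h₁) (isG0Hom_entryFun φ₂ h₂)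
    (by rw [entryFun_eq φ₁ hu]
        exact hp₁ _ (slOfEntries_mem_Gamma0 hu (dvd_zero _)) (htr 1 1 0 1 hu (by norm_num)))
    (by rw [entryFun_eq φ₁ hl]
        exact hp₁ _ (slOfEntries_mem_Gamma0 hl dvd_rfl) (htr 1 0 N 1 hl (by norm_num)))
    (by rw [entryFun_eq φ₂ hu]
        exact hp₂ _ (slOfEntries_mem_Gamma0 hu (dvd_zero _)) (htr 1 1 0 1 hu (by norm_num)))
    (by rw [entryFun_eq φ₂ hl]
        exact hp₂ _ (slOfEntries_mem_Gamma0 hl dvd_rfl) (htr 1 0 N 1 hl (by norm_num)))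
    (by
      intro a b c d h
      have h1 : a * d - (q : ℤ) * b * ((N : ℤ) * c) = 1 := by linear_combination h
      have h2 : a * d - b * ((N : ℤ) * q * c) = 1 := by linear_combination h
      rw [entryFun_eq φ₁ h1, entryFun_eq φ₂ h2]
      refine hK _ (slOfEntries_mem_Gamma0 h2 ⟨c, by push_cast; ring⟩) _
        (slOfEntries_mem_Gamma0 h1 (dvd_mul_right _ _)) ?_ ?_ ?_ ?_
      · rfl
      · rfl
      · show (q : ℤ) * ((N : ℤ) * c) = (N : ℤ) * q * c
        ring
      · rfl)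
  have hdet : X 0 0 * X 1 1 - X 0 1 * X 1 0 = 1 := by
    have hd := X.det_coe
    rw [Matrix.det_fin_two] at hd
    exact hd
  have hXeq : slOfEntries (X 0 0) (X 0 1) (X 1 0) (X 1 1) hdet = X := by
    apply Subtype.ext
    ext i k
    fin_cases i <;> fin_cases k <;> rfl
  obtain ⟨ha, -, hc⟩ := (Gamma1_mem N X).mp hX
  have hc' : (N : ℤ) ∣ X 1 0 := (ZMod.intCast_zmod_eq_zero_iff_dvd _ _).mp hc
  have ha' : X 0 0 ≡ 1 [ZMOD N] := by
    rw [← ZMod.intCast_eq_intCast_iff]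
    push_cast
    exact ha
  have k2 := key (X 0 0) (X 0 1) (X 1 0) (X 1 1) hdet hc' ha'
  rw [entryFun_eq φ₁ hdet, entryFun_eq φ₂ hdet, hXeq] at k2
  exact k2

/-- **IHARA hypothesis of Core from the entry form of Ihara's lemma** (integer-valued
parabolic-elliptic homomorphisms; every prime `ℓ ∤ N`). -/
theorem ihara_pe_of_entry {N q p : ℕ} [Fact q.Prime] (hqN : ¬ q ∣ N) (hp : p ≠ 0)
    (hE : IharaEntry N q (ZMod p)) {ℓ : ℕ} [Fact ℓ.Prime] (hℓN : ¬ ℓ ∣ N)
    (x y : Additive (Gamma0 N) →+ ℤ)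
    (hx : IsPEHom (Gamma0 N) x) (hy : IsPEHom (Gamma0 N) y)
    (z : Additive (Gamma0 (N * q)) →+ ℤ)
    (hxy : resCoh N q x + wCoh N q (resCoh N q y) = (p : ℤ) • z) :
    (∃ x' : Additive (Gamma0 N) →+ ℤ, IsPEHom (Gamma0 N) x' ∧
        heckeCoh N ⟨ℓ, Fact.out⟩ x - (ℓ + 1) • x = (p : ℤ) • x') ∧
      (∃ y' : Additive (Gamma0 N) →+ ℤ, IsPEHom (Gamma0 N) y' ∧
        heckeCoh N ⟨ℓ, Fact.out⟩ y - (ℓ + 1) • y = (p : ℤ) • y') :=
  ihara_int_pe hqN hp (iharaKills_of_entry hE) hℓN x y hx hy z hxy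

end

end Fermat.Agent.S41.Ihara.Eis
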