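import Mathlib
import Fermat.Agent.S41.Ihara.Defs

/-!
# S41 / Ihara's lemma, elementary form: the integer layer (IHARA-T3)

From a pair `(F₁, F₂)` of "homomorphisms on `Γ₀(N)`" (written on matrix entries) which kill the
two parabolic generators and satisfy the kernel relation `F₁ (η X η⁻¹) = F₂ X` on `Γ₀(N q)`
(`η = diag(q, 1)`), we construct the two symbols `S₁, S₂` (values on first rows) and prove the
axioms `IsIharaSymbol N q Sᵢ κ` with a common `κ`.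

Everything is integer algebra: each step is one application of `IsG0Hom.mul` to eight explicit
integers, with the entries identified by `ring` / `linear_combination`.
-/

set_option autoImplicit false

namespace Fermat.Agent.S41.Ihara

namespace IntLayer

variable {N : ℕ} {V : Type*} [AddCommGroup V] {F : ℤ → ℤ → ℤ → ℤ → V}

/-- `IsG0Hom.mul` with the entries of the product given up to propositional equality. -/
theorem mul' (hF : IsG0Hom N F) {a b c d a' b' c' d' A B C D : ℤ} (h1 : a * d - b * c = 1)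
    (h2 : (N : ℤ) ∣ c) (h3 : a' * d' - b' * c' = 1) (h4 : (N : ℤ) ∣ c')
    (hA : A = a * a' + b * c') (hB : B = a * b' + b * d') (hC : C = c * a' + d * c')
    (hD : D = c * b' + d * d') :
    F A B C D = F a b c d + F a' b' c' d' := by
  subst hA hB hC hD
  exact hF.mul a b c d a' b' c' d' h1 h2 h3 h4

theorem map_one (hF : IsG0Hom N F) : F 1 0 0 1 = 0 := by
  have h := mul' hF (a := 1) (b := 0) (c := 0) (d := 1) (a' := 1) (b' := 0) (c' := 0) (d' := 1)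
    (A := 1) (B := 0) (C := 0) (D := 1) (by ring) (dvd_zero _) (by ring) (dvd_zero _)
    (by ring) (by ring) (by ring) (by ring)
  simpa using h

theorem map_lower (hF : IsG0Hom N F) (hl : F 1 0 N 1 = 0) (t : ℤ) : F 1 0 (N * t) 1 = 0 := by
  induction t using Int.induction_on with
  | zero => simpa using map_one hF
  | succ i ih =>
    have h := mul' hF (a := 1) (b := 0) (c := N * i) (d := 1) (a' := 1) (b' := 0) (c' := N)
      (d' := 1) (A := 1) (B := 0) (C := N * ((i : ℤ) + 1)) (D := 1) (by ring)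
      (dvd_mul_right _ _) (by ring) dvd_rfl (by ring) (by ring) (by ring) (by ring)
    rw [h, ih, hl, add_zero]
  | pred i ih =>
    have h := mul' hF (a := 1) (b := 0) (c := N * (-(i : ℤ) - 1)) (d := 1) (a' := 1) (b' := 0)
      (c' := N) (d' := 1) (A := 1) (B := 0) (C := N * (-(i : ℤ))) (D := 1) (by ring)
      (dvd_mul_right _ _) (by ring) dvd_rfl (by ring) (by ring) (by ring) (by ring)
    rw [ih, hl, add_zero] at h
    exact h.symm

theorem map_upper (hF : IsG0Hom N F) (hu : F 1 1 0 1 = 0) (x : ℤ) : F 1 x 0 1 = 0 := by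
  induction x using Int.induction_on with
  | zero => exact map_one hF
  | succ i ih =>
    have h := mul' hF (a := 1) (b := i) (c := 0) (d := 1) (a' := 1) (b' := 1) (c' := 0)
      (d' := 1) (A := 1) (B := (i : ℤ) + 1) (C := 0) (D := 1) (by ring)
      (dvd_zero _) (by ring) (dvd_zero _) (by ring) (by ring) (by ring) (by ring)
    rw [h, ih, hu, add_zero]
  | pred i ih =>
    have h := mul' hF (a := 1) (b := -(i : ℤ) - 1) (c := 0) (d := 1) (a' := 1) (b' := 1)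
      (c' := 0) (d' := 1) (A := 1) (B := -(i : ℤ)) (C := 0) (D := 1) (by ring)
      (dvd_zero _) (by ring) (dvd_zero _) (by ring) (by ring) (by ring) (by ring)
    rw [ih, hu, add_zero] at h
    exact h.symm

/-- The value of `F` on a matrix of `Γ₀(N)` only depends on its first row. -/
theorem well_defined (hF : IsG0Hom N F) (hl : F 1 0 N 1 = 0) {a b c d c' d' : ℤ}
    (h : a * d - b * c = 1) (hc : (N : ℤ) ∣ c) (h' : a * d' - b * c' = 1) (hc' : (N : ℤ) ∣ c') :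
    F a b c' d' = F a b c d := by
  obtain ⟨c₀, rfl⟩ := hc
  obtain ⟨c₀', rfl⟩ := hc'
  have h0 := map_lower hF hl (c₀' * d - d' * c₀)
  have hm := mul' hF (a := 1) (b := 0) (c := N * (c₀' * d - d' * c₀)) (d := 1) (a' := a)
    (b' := b) (c' := N * c₀) (d' := d) (A := a) (B := b) (C := N * c₀') (D := d') (by ring)
    (dvd_mul_right _ _) h (dvd_mul_right _ _) (by ring) (by ring)
    (by linear_combination (-(N : ℤ) * c₀') * h + ((N : ℤ) * c₀) * h')
    (by linear_combination (-d') * h + d * h')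
  rw [hm, h0, zero_add]

open Classical in
/-- The symbol attached to `F`: the value of `F` on any matrix of `Γ₀(N)` with first row
`(a, b)` (and `0` if there is none). -/
noncomputable def sym (N : ℕ) (F : ℤ → ℤ → ℤ → ℤ → V) (a b : ℤ) : V :=
  if h : ∃ c d : ℤ, a * d - b * c = 1 ∧ (N : ℤ) ∣ c then F a b h.choose h.choose_spec.choose
  else 0

theorem sym_eq (hF : IsG0Hom N F) (hl : F 1 0 N 1 = 0) {a b c d : ℤ}
    (h : a * d - b * c = 1) (hc : (N : ℤ) ∣ c) : F a b c d = sym N F a b := by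
  have hex : ∃ c d : ℤ, a * d - b * c = 1 ∧ (N : ℤ) ∣ c := ⟨c, d, h, hc⟩
  unfold sym
  rw [dif_pos hex]
  exact well_defined hF hl hex.choose_spec.choose_spec.1 hex.choose_spec.choose_spec.2 h hc

/-- The symbol of the first row of a product. -/
theorem mul_sym (hF : IsG0Hom N F) (hl : F 1 0 N 1 = 0) {a b c d a' b' c' d' A B : ℤ}
    (h1 : a * d - b * c = 1) (h2 : (N : ℤ) ∣ c) (h3 : a' * d' - b' * c' = 1)
    (h4 : (N : ℤ) ∣ c') (hA : A = a * a' + b * c') (hB : B = a * b' + b * d') :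
    sym N F A B = F a b c d + F a' b' c' d' := by
  subst hA hB
  rw [← hF.mul a b c d a' b' c' d' h1 h2 h3 h4]
  symm
  apply sym_eq hF hl
  · linear_combination (a' * d' - b' * c') * h1 + h3
  · exact dvd_add (dvd_mul_of_dvd_left h2 _) (dvd_mul_of_dvd_right h4 _)

theorem exists_of_isCoprime {a b : ℤ} (h : IsCoprime a ((N : ℤ) * b)) :
    ∃ c d : ℤ, a * d - b * ((N : ℤ) * c) = 1 := by
  obtain ⟨u, v, huv⟩ := h
  exact ⟨-v, u, by linear_combination huv⟩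

theorem sym_shiftR (hF : IsG0Hom N F) (hu : F 1 1 0 1 = 0) (hl : F 1 0 N 1 = 0) (a b x : ℤ)
    (h : IsCoprime a ((N : ℤ) * b)) : sym N F a (b + x * a) = sym N F a b := by
  obtain ⟨c, d, hcd⟩ := exists_of_isCoprime h
  rw [mul_sym hF hl (a := a) (b := b) (c := N * c) (d := d) (a' := 1) (b' := x) (c' := 0)
    (d' := 1) (A := a) (B := b + x * a) hcd (dvd_mul_right _ _) (by ring) (dvd_zero _) (by ring) (by ring),
    map_upper hF hu, add_zero, sym_eq hF hl hcd (dvd_mul_right _ _)]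

theorem sym_shiftL (hF : IsG0Hom N F) (hl : F 1 0 N 1 = 0) (a b x : ℤ)
    (h : IsCoprime a ((N : ℤ) * b)) : sym N F (a + (N : ℤ) * x * b) b = sym N F a b := by
  obtain ⟨c, d, hcd⟩ := exists_of_isCoprime h
  rw [mul_sym hF hl (a := a) (b := b) (c := N * c) (d := d) (a' := 1) (b' := 0) (c' := N * x)
    (d' := 1) (A := a + (N : ℤ) * x * b) (B := b) hcd (dvd_mul_right _ _) (by ring) (dvd_mul_right _ _) (by ring) (by ring),
    map_lower hF hl, add_zero, sym_eq hF hl hcd (dvd_mul_right _ _)]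

theorem sym_one (hF : IsG0Hom N F) (hu : F 1 1 0 1 = 0) (hl : F 1 0 N 1 = 0) (b : ℤ) :
    sym N F 1 b = 0 := by
  rw [← sym_eq hF hl (a := 1) (b := b) (c := 0) (d := 1) (by ring) (dvd_zero _),
    map_upper hF hu]

theorem sym_prod (hF : IsG0Hom N F) (hl : F 1 0 N 1 = 0) (a₁ a₂ d₂ c₂ b : ℤ)
    (h : IsCoprime a₁ ((N : ℤ) * b)) (h₂ : a₂ * d₂ - (N : ℤ) * b * c₂ = 1) :
    sym N F a₁ b + sym N F a₂ b = sym N F (a₂ * (a₁ + d₂) - 1) (b * (a₁ + d₂)) := by
  obtain ⟨c₁, d₁, hcd⟩ := exists_of_isCoprime h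
  have h₂' : a₂ * d₂ - b * ((N : ℤ) * c₂) = 1 := by linear_combination h₂
  rw [mul_sym hF hl (a := a₁) (b := b) (c := N * c₁) (d := d₁) (a' := a₂) (b' := b)
    (c' := N * c₂) (d' := d₂) (A := a₂ * (a₁ + d₂) - 1) (B := b * (a₁ + d₂))
    hcd (dvd_mul_right _ _) h₂' (dvd_mul_right _ _)
    (by linear_combination h₂) (by ring),
    sym_eq hF hl hcd (dvd_mul_right _ _), sym_eq hF hl h₂' (dvd_mul_right _ _)]

section Stages

variable {q : ℕ} {F₁ F₂ : ℤ → ℤ → ℤ → ℤ → V}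

/-- STAGE 1: `S₁ (q a) b = S₂ a b + κ₁`. -/
theorem stage1 (hF₁ : IsG0Hom N F₁) (hF₂ : IsG0Hom N F₂) (hl₁ : F₁ 1 0 N 1 = 0)
    (hl₂ : F₂ 1 0 N 1 = 0)
    (hK : ∀ a b c d : ℤ, a * d - (N : ℤ) * q * b * c = 1 →
      F₁ a (q * b) (N * c) d = F₂ a b (N * q * c) d)
    {a' b₀ c₀ d₀ : ℤ} (hg : ((q : ℤ) * a') * d₀ - b₀ * ((N : ℤ) * c₀) = 1)
    {a b c d c' d' : ℤ} (hY : a * d - b * ((N : ℤ) * c) = 1)
    (hY' : (q : ℤ) * a * d' - b * ((N : ℤ) * c') = 1) :
    sym N F₁ ((q : ℤ) * a) b =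
      sym N F₂ a b + (F₂ ((q : ℤ) * a') b₀ ((N : ℤ) * c₀) d₀
        + F₁ ((q : ℤ) * d₀) (-b₀) (-((N : ℤ) * c₀)) a') := by
  -- the matrix `P = Y * g`
  have hP := mul' hF₂ (a := a) (b := b) (c := N * c) (d := d) (a' := q * a') (b' := b₀)
    (c' := N * c₀) (d' := d₀)
    (A := a * (q * a') + b * (N * c₀)) (B := a * b₀ + b * d₀)
    (C := N * c * (q * a') + d * (N * c₀)) (D := N * c * b₀ + d * d₀)
    hY (dvd_mul_right _ _) hg (dvd_mul_right _ _) rfl rfl rfl rfl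
  have hdetP : (a * (q * a') + b * (N * c₀)) * (N * c * b₀ + d * d₀)
      - (a * b₀ + b * d₀) * (N * c * (q * a') + d * (N * c₀)) = 1 := by
    linear_combination (((q : ℤ) * a') * d₀ - b₀ * ((N : ℤ) * c₀)) * hY + hg
  -- the matrix `X = l(N s) * P`, `s = c' d`, lower left entry `N q m`
  have hX := mul' hF₂ (a := 1) (b := 0) (c := N * (c' * d)) (d := 1)
    (a' := a * (q * a') + b * (N * c₀)) (b' := a * b₀ + b * d₀)
    (c' := N * c * (q * a') + d * (N * c₀)) (d' := N * c * b₀ + d * d₀)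
    (A := a * (q * a') + b * (N * c₀)) (B := a * b₀ + b * d₀)
    (C := N * q * (c' * d * a * a' + c * a' + c₀ * (a * d * d')))
    (D := N * (c' * d) * (a * b₀ + b * d₀) + (N * c * b₀ + d * d₀))
    (by ring) (dvd_mul_right _ _) hdetP ⟨c * (q * a') + d * c₀, by ring⟩ (by ring) (by ring)
    (by linear_combination ((N : ℤ) * c₀ * d) * hY') (by ring)
  rw [map_lower hF₂ hl₂, zero_add] at hX
  have hdetX : (a * (q * a') + b * (N * c₀))
      * (N * (c' * d) * (a * b₀ + b * d₀) + (N * c * b₀ + d * d₀))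
      - (N : ℤ) * q * (a * b₀ + b * d₀) * (c' * d * a * a' + c * a' + c₀ * (a * d * d')) = 1 := by
    linear_combination (((q : ℤ) * a') * d₀ - b₀ * ((N : ℤ) * c₀)) * hY + hg
      - ((a * b₀ + b * d₀) * (N : ℤ) * c₀ * d) * hY'
  have hKX := hK _ _ _ _ hdetX
  rw [mul_sym hF₁ hl₁ (a := a * (q * a') + b * (N * c₀)) (b := q * (a * b₀ + b * d₀))
    (c := N * (c' * d * a * a' + c * a' + c₀ * (a * d * d')))
    (d := N * (c' * d) * (a * b₀ + b * d₀) + (N * c * b₀ + d * d₀))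
    (a' := q * d₀) (b' := -b₀) (c' := -(N * c₀)) (d' := a') (A := (q : ℤ) * a) (B := b)
    (by linear_combination hdetX) (dvd_mul_right _ _) (by linear_combination hg)
    ⟨-c₀, by ring⟩ (by linear_combination (-(q : ℤ) * a) * hg)
    (by linear_combination (-b) * hg),
    hKX, hX, hP, sym_eq hF₂ hl₂ hY (dvd_mul_right _ _)]
  abel

/-- STAGE 2: `S₂ (q a) b = S₁ a b + κ₁`. -/
theorem stage2 (hF₁ : IsG0Hom N F₁) (hF₂ : IsG0Hom N F₂) (hl₁ : F₁ 1 0 N 1 = 0)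
    (hl₂ : F₂ 1 0 N 1 = 0)
    (hK : ∀ a b c d : ℤ, a * d - (N : ℤ) * q * b * c = 1 →
      F₁ a (q * b) (N * c) d = F₂ a b (N * q * c) d)
    {a' b₀ c₀ d₀ : ℤ} (hg : ((q : ℤ) * a') * d₀ - b₀ * ((N : ℤ) * c₀) = 1)
    {a b c d₁ : ℤ} (hY : a * ((q : ℤ) * d₁) - b * ((N : ℤ) * c) = 1) :
    sym N F₂ ((q : ℤ) * a) b =
      sym N F₁ a b + (F₂ ((q : ℤ) * a') b₀ ((N : ℤ) * c₀) d₀
        + F₁ ((q : ℤ) * d₀) (-b₀) (-((N : ℤ) * c₀)) a') := by
  have hg₁ : ((q : ℤ) * d₀) * a' - (-b₀) * (-((N : ℤ) * c₀)) = 1 := by linear_combination hg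
  -- the matrix `G = g₁ * Y`
  have hG := mul' hF₁ (a := q * d₀) (b := -b₀) (c := -(N * c₀)) (d := a') (a' := a) (b' := b)
    (c' := N * c) (d' := q * d₁)
    (A := q * d₀ * a - b₀ * (N * c)) (B := q * (d₀ * b - b₀ * d₁))
    (C := N * (a' * c - c₀ * a)) (D := a' * (q * d₁) - N * c₀ * b)
    hg₁ ⟨-c₀, by ring⟩ hY (dvd_mul_right _ _) (by ring) (by ring) (by ring) (by ring)
  have hdetG : (q * d₀ * a - b₀ * (N * c)) * (a' * (q * d₁) - N * c₀ * b)
      - (N : ℤ) * q * (d₀ * b - b₀ * d₁) * (a' * c - c₀ * a) = 1 := by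
    linear_combination (((q : ℤ) * a') * d₀ - b₀ * ((N : ℤ) * c₀)) * hY + hg
  have hKG := hK _ _ _ _ hdetG
  rw [mul_sym hF₂ hl₂ (a := q * a') (b := b₀) (c := N * c₀) (d := d₀)
    (a' := q * d₀ * a - b₀ * (N * c)) (b' := d₀ * b - b₀ * d₁)
    (c' := N * q * (a' * c - c₀ * a)) (d' := a' * (q * d₁) - N * c₀ * b)
    (A := (q : ℤ) * a) (B := b)
    hg (dvd_mul_right _ _) (by linear_combination hdetG) ⟨q * (a' * c - c₀ * a), by ring⟩
    (by linear_combination (-(q : ℤ) * a) * hg) (by linear_combination (-b) * hg),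
    ← hKG, hG, sym_eq hF₁ hl₁ hY (dvd_mul_right _ _)]
  abel

end Stages

end IntLayer

open IntLayer in
/-- **IHARA-T3** (integer layer): from the pair `(F₁, F₂)` with the kernel relation to the
symbol axioms. -/
theorem exists_isIharaSymbol {N q : ℕ} (_hN : 0 < N) (hq : q.Prime) (hqN : ¬ q ∣ N)
    {V : Type*} [AddCommGroup V] (F₁ F₂ : ℤ → ℤ → ℤ → ℤ → V)
    (hF₁ : IsG0Hom N F₁) (hF₂ : IsG0Hom N F₂)
    (hu₁ : F₁ 1 1 0 1 = 0) (hl₁ : F₁ 1 0 N 1 = 0) (hu₂ : F₂ 1 1 0 1 = 0) (hl₂ : F₂ 1 0 N 1 = 0)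
    (hK : ∀ a b c d : ℤ, a * d - (N : ℤ) * q * b * c = 1 →
      F₁ a (q * b) (N * c) d = F₂ a b (N * q * c) d) :
    ∃ (S₁ S₂ : ℤ → ℤ → V) (κ : V), IsIharaSymbol N q S₁ κ ∧ IsIharaSymbol N q S₂ κ ∧
      (∀ a b c d : ℤ, a * d - b * c = 1 → (N : ℤ) ∣ c → F₁ a b c d = S₁ a b) ∧
      (∀ a b c d : ℤ, a * d - b * c = 1 → (N : ℤ) ∣ c → F₂ a b c d = S₂ a b) := by
  have hqN' : IsCoprime (q : ℤ) (N : ℤ) :=
    Nat.isCoprime_iff_coprime.2 ((Nat.Prime.coprime_iff_not_dvd hq).2 hqN)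
  obtain ⟨u, v, huv⟩ := hqN'
  -- the auxiliary matrix `g = (q a', b₀, N c₀, d₀)` with `a' = u`, `b₀ = 1`, `c₀ = -v`, `d₀ = 1`
  have hg : ((q : ℤ) * u) * 1 - 1 * ((N : ℤ) * (-v)) = 1 := by linear_combination huv
  have hqN' : IsCoprime (q : ℤ) (N : ℤ) := ⟨u, v, huv⟩
  set κ₁ : V := F₂ ((q : ℤ) * u) 1 ((N : ℤ) * (-v)) 1
    + F₁ ((q : ℤ) * 1) (-1) (-((N : ℤ) * (-v))) u with hκ₁
  -- the two half steps
  have half1 : ∀ a b : ℤ, IsCoprime a ((N : ℤ) * b) → IsCoprime (q : ℤ) b →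
      sym N F₁ ((q : ℤ) * a) b = sym N F₂ a b + κ₁ := by
    intro a b hab hqb
    obtain ⟨c, d, hY⟩ := exists_of_isCoprime hab
    have hqab : IsCoprime ((q : ℤ) * a) ((N : ℤ) * b) :=
      IsCoprime.mul_left (IsCoprime.mul_right hqN' hqb) hab
    obtain ⟨c', d', hY'⟩ := exists_of_isCoprime hqab
    exact stage1 hF₁ hF₂ hl₁ hl₂ hK hg hY hY'
  have half2 : ∀ a b : ℤ, IsCoprime a ((N : ℤ) * b) → IsCoprime (q : ℤ) b →
      sym N F₂ ((q : ℤ) * a) b = sym N F₁ a b + κ₁ := by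
    intro a b hab hqb
    have hqab : IsCoprime ((q : ℤ) * a) ((N : ℤ) * b) :=
      IsCoprime.mul_left (IsCoprime.mul_right hqN' hqb) hab
    obtain ⟨c, d₁, hY'⟩ := exists_of_isCoprime hqab
    exact stage2 hF₁ hF₂ hl₁ hl₂ hK hg (a := a) (b := b) (c := c) (d₁ := d₁)
      (by linear_combination hY')
  refine ⟨sym N F₁, sym N F₂, κ₁ + κ₁, ?_, ?_, ?_, ?_⟩
  · refine ⟨sym_shiftR hF₁ hu₁ hl₁, sym_shiftL hF₁ hl₁, sym_one hF₁ hu₁ hl₁, ?_,
      sym_prod hF₁ hl₁⟩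
    intro a b hab hqb
    have hqab : IsCoprime ((q : ℤ) * a) ((N : ℤ) * b) :=
      IsCoprime.mul_left (IsCoprime.mul_right hqN' hqb) hab
    have e : (q : ℤ) ^ 2 * a = (q : ℤ) * ((q : ℤ) * a) := by ring
    rw [e, half1 _ _ hqab hqb, half2 _ _ hab hqb]
    abel
  · refine ⟨sym_shiftR hF₂ hu₂ hl₂, sym_shiftL hF₂ hl₂, sym_one hF₂ hu₂ hl₂, ?_,
      sym_prod hF₂ hl₂⟩
    intro a b hab hqb
    have hqab : IsCoprime ((q : ℤ) * a) ((N : ℤ) * b) :=
      IsCoprime.mul_left (IsCoprime.mul_right hqN' hqb) hab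
    have e : (q : ℤ) ^ 2 * a = (q : ℤ) * ((q : ℤ) * a) := by ring
    rw [e, half2 _ _ hqab hqb, half1 _ _ hab hqb]
    abel
  · intro a b c d h hc
    exact sym_eq hF₁ hl₁ h hc
  · intro a b c d h hc
    exact sym_eq hF₂ hl₂ h hc

end Fermat.Agent.S41.Ihara
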