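import Fermat.Agent.S41.Ihara.Reduction
import Fermat.Agent.S41.Ihara.IntLayer

/-!
# S41 / Ihara's lemma, elementary form: the main theorem on matrix entries

`ihara_int` : let `q ∤ N` be a prime, `p` an odd prime, `V` an abelian group killed by `p`, and
`F₁, F₂` two "homomorphisms `Γ₀(N) → V`" (written on matrix entries) which kill the parabolic
generators `(1,1;0,1)`, `(1,0;N,1)` and satisfy the kernel relation
`F₁ (a, q b; N c, d) = F₂ (a, b; N q c, d)` on `Γ₀(N q)`.  Then `F₁` and `F₂` vanish on `Γ₁(N)`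
(indeed on all matrices of `Γ₀(N)` whose upper left entry is `≡ 1 mod N`).
-/

set_option autoImplicit false

namespace Fermat.Agent.S41.Ihara

/-- **Ihara's lemma, elementary integer form.** -/
theorem ihara_int {N q p : ℕ} (hN : 0 < N) (hq : q.Prime) (hqN : ¬ q ∣ N) (hp : p.Prime)
    (hp2 : p ≠ 2) {V : Type*} [AddCommGroup V] (hV : ∀ v : V, p • v = 0)
    (F₁ F₂ : ℤ → ℤ → ℤ → ℤ → V) (hF₁ : IsG0Hom N F₁) (hF₂ : IsG0Hom N F₂)
    (hu₁ : F₁ 1 1 0 1 = 0) (hl₁ : F₁ 1 0 N 1 = 0) (hu₂ : F₂ 1 1 0 1 = 0) (hl₂ : F₂ 1 0 N 1 = 0)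
    (hK : ∀ a b c d : ℤ, a * d - (N : ℤ) * q * b * c = 1 →
      F₁ a (q * b) (N * c) d = F₂ a b (N * q * c) d) :
    ∀ a b c d : ℤ, a * d - b * c = 1 → (N : ℤ) ∣ c → a ≡ 1 [ZMOD N] →
      F₁ a b c d = 0 ∧ F₂ a b c d = 0 := by
  obtain ⟨S₁, S₂, κ, hS₁, hS₂, h1, h2⟩ :=
    exists_isIharaSymbol hN hq hqN F₁ F₂ hF₁ hF₂ hu₁ hl₁ hu₂ hl₂ hK
  intro a b c d hdet hc ha
  obtain ⟨c', rfl⟩ := hc
  have hab : IsCoprime a ((N : ℤ) * b) := ⟨d, -c', by linear_combination hdet⟩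
  exact ⟨by rw [h1 a b _ d hdet (dvd_mul_right _ _)]; exact hS₁.eq_zero hN hq hqN hp hp2 hV a b hab ha,
    by rw [h2 a b _ d hdet (dvd_mul_right _ _)]; exact hS₂.eq_zero hN hq hqN hp hp2 hV a b hab ha⟩

end Fermat.Agent.S41.Ihara
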