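import Mathlib
import Fermat.Agent.S41.Ihara.Main
import Fermat.Agent.S41.Ihara.EisBridge
import Fermat.Agent.S41.Coh.CoreData

/-!
# S41 / WP-B3 : Ihara's lemma in the vocabulary of the cohomology operators, unconditionally

`S41/Ihara/Main.lean` proves Ihara's lemma on matrix entries (`Fermat.Agent.S41.Ihara.ihara_int`).
Here it is plugged into `EisBridge.lean` / `Eisenstein.lean`:

* `iharaEntry_of_prime`, `iharaKills_of_prime` : the statements `IharaEntry N q V`,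
  `IharaKills N q V` for every abelian group `V` killed by an odd prime `p`;
* `heckeCoh_eq_of_res_add_wres` : `res x + w (res y) = 0` for parabolic homomorphisms
  `x, y : Γ₀(N) → V` forces `T_ℓ x = (ℓ + 1) x`, `T_ℓ y = (ℓ + 1) y` for every prime `ℓ ∤ N`;
* `ihara_modp` (and the variants `ihara_modp_sub`, `ihara_modp_zmod`) : the same on the modules
  `peHoms (Gamma0 N) (ZMod p) (ZMod p)` with the operators `resPE`, `wPE`, `heckePE`: this is the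
  hypothesis `ihara` of `DualIhara.ihara_of_reduction`;
* `ihara_pe` : the integer form on parabolic-elliptic homomorphisms (hypothesis IHARA of Core).
-/

set_option autoImplicit false

open scoped MatrixGroups
open CongruenceSubgroup ModularForm ModularCurve.Period

namespace Fermat.Agent.S41.Ihara.Eis

open Fermat.Agent.ESJ.ParHom Fermat.Agent.S41.Coh

noncomputable section

/-- Ihara's lemma, entry form, for coefficients killed by an odd prime. -/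
theorem iharaEntry_of_prime {N q p : ℕ} (hN : 0 < N) (hq : q.Prime) (hqN : ¬ q ∣ N)
    (hp : p.Prime) (hp2 : p ≠ 2) {V : Type*} [AddCommGroup V] (hV : ∀ v : V, p • v = 0) :
    IharaEntry N q V :=
  fun F₁ F₂ hF₁ hF₂ hu₁ hl₁ hu₂ hl₂ hK =>
    Fermat.Agent.S41.Ihara.ihara_int hN hq hqN hp hp2 hV F₁ F₂ hF₁ hF₂ hu₁ hl₁ hu₂ hl₂ hK

/-- Ihara's lemma for functions on `SL(2, ℤ)`, for coefficients killed by an odd prime. -/
theorem iharaKills_of_prime {N q p : ℕ} (hN : 0 < N) (hq : q.Prime) (hqN : ¬ q ∣ N)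
    (hp : p.Prime) (hp2 : p ≠ 2) {V : Type*} [AddCommGroup V] (hV : ∀ v : V, p • v = 0) :
    IharaKills N q V :=
  iharaKills_of_entry (iharaEntry_of_prime hN hq hqN hp hp2 hV)

theorem nsmul_zmod_eq_zero (p : ℕ) (v : ZMod p) : p • v = 0 := by
  rw [nsmul_eq_mul, ZMod.natCast_self, zero_mul]

/-- Ihara's lemma for `𝔽_p`-valued functions on `SL(2, ℤ)`, `p` an odd prime. -/
theorem iharaKills_zmod {N q p : ℕ} (hN : 0 < N) (hq : q.Prime) (hqN : ¬ q ∣ N)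
    (hp : p.Prime) (hp2 : p ≠ 2) : IharaKills N q (ZMod p) :=
  iharaKills_of_prime hN hq hqN hp hp2 (nsmul_zmod_eq_zero p)

/-- **Ihara's lemma, Eisenstein form.**  If `res x + w (res y) = 0` at level `N q` for two
parabolic homomorphisms `x, y : Γ₀(N) → V` (`V` killed by an odd prime), then `x` and `y` are
Eisenstein: `T_ℓ = ℓ + 1` on both, for every prime `ℓ ∤ N`. -/
theorem heckeCoh_eq_of_res_add_wres {N q p : ℕ} [Fact q.Prime] (hN : 0 < N) (hqN : ¬ q ∣ N)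
    (hp : p.Prime) (hp2 : p ≠ 2) {V : Type*} [AddCommGroup V] (hV : ∀ v : V, p • v = 0)
    {ℓ : ℕ} [Fact ℓ.Prime] (hℓN : ¬ ℓ ∣ N) (x y : Additive (Gamma0 N) →+ V)
    (hx : IsParabolicHom (Gamma0 N) x) (hy : IsParabolicHom (Gamma0 N) y)
    (hxy : resCoh N q x + wCoh N q (resCoh N q y) = 0) :
    heckeCoh N ⟨ℓ, Fact.out⟩ x = (ℓ + 1) • x ∧ heckeCoh N ⟨ℓ, Fact.out⟩ y = (ℓ + 1) • y := by
  obtain ⟨h1, h2⟩ := kills_Gamma1_of_res_add_wres hqN
    (iharaKills_of_prime hN (Fact.out : q.Prime) hqN hp hp2 hV) x y hx hy hxy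
  exact ⟨heckeCoh_eq_smul_of_Gamma1 hℓN x h1, heckeCoh_eq_smul_of_Gamma1 hℓN y h2⟩

/-- **Ihara's lemma modulo `p`** on parabolic-elliptic homomorphisms, in the vocabulary of
`CoreData`: the kernel of `(a, b) ↦ res a + w (res b)` is Eisenstein. -/
theorem ihara_modp {N q p : ℕ} [Fact q.Prime] (hN : 0 < N) (hqN : ¬ q ∣ N)
    (hp : p.Prime) (hp2 : p ≠ 2) {ℓ : ℕ} [Fact ℓ.Prime] (hℓN : ¬ ℓ ∣ N)
    (a b : peHoms (Gamma0 N) (ZMod p) (ZMod p))
    (h : resPE N q (ZMod p) (ZMod p) a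
      + wPE N q (ZMod p) (ZMod p) (resPE N q (ZMod p) (ZMod p) b) = 0) :
    heckePE N ⟨ℓ, Fact.out⟩ (ZMod p) (ZMod p) a = (ℓ + 1) • a ∧
      heckePE N ⟨ℓ, Fact.out⟩ (ZMod p) (ZMod p) b = (ℓ + 1) • b := by
  have h' : resCoh N q (a : Additive (Gamma0 N) →+ ZMod p)
      + wCoh N q (resCoh N q (b : Additive (Gamma0 N) →+ ZMod p)) = 0 := by
    have := congrArg (Subtype.val) h
    exact this
  obtain ⟨h1, h2⟩ := heckeCoh_eq_of_res_add_wres hN hqN hp hp2 (nsmul_zmod_eq_zero p) hℓN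
    (a : Additive (Gamma0 N) →+ ZMod p) (b : Additive (Gamma0 N) →+ ZMod p)
    (fun γ hγ => a.2 γ hγ.le) (fun γ hγ => b.2 γ hγ.le) h'
  exact ⟨Subtype.ext h1, Subtype.ext h2⟩

/-- `ihara_modp` with the Eisenstein operator `T_ℓ - (ℓ + 1)` written as a difference: exactly
the hypothesis `ihara` of `DualIhara.ihara_of_reduction` for
`αb₁ = resPE`, `αb₂ = wPE ∘ resPE`, `Eb = fun a => heckePE N ℓ a - (ℓ + 1) • a`. -/
theorem ihara_modp_sub {N q p : ℕ} [Fact q.Prime] (hN : 0 < N) (hqN : ¬ q ∣ N)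
    (hp : p.Prime) (hp2 : p ≠ 2) {ℓ : ℕ} [Fact ℓ.Prime] (hℓN : ¬ ℓ ∣ N) :
    ∀ a b : peHoms (Gamma0 N) (ZMod p) (ZMod p),
      resPE N q (ZMod p) (ZMod p) a
        + wPE N q (ZMod p) (ZMod p) (resPE N q (ZMod p) (ZMod p) b) = 0 →
      heckePE N ⟨ℓ, Fact.out⟩ (ZMod p) (ZMod p) a - (ℓ + 1) • a = 0 ∧
        heckePE N ⟨ℓ, Fact.out⟩ (ZMod p) (ZMod p) b - (ℓ + 1) • b = 0 := by
  intro a b h
  obtain ⟨h1, h2⟩ := ihara_modp hN hqN hp hp2 hℓN a b h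
  exact ⟨sub_eq_zero.mpr h1, sub_eq_zero.mpr h2⟩

/-- `ihara_modp` with the scalar `ℓ + 1` taken in `𝔽_p`. -/
theorem ihara_modp_zmod {N q p : ℕ} [Fact q.Prime] (hN : 0 < N) (hqN : ¬ q ∣ N)
    (hp : p.Prime) (hp2 : p ≠ 2) {ℓ : ℕ} [Fact ℓ.Prime] (hℓN : ¬ ℓ ∣ N)
    (a b : peHoms (Gamma0 N) (ZMod p) (ZMod p))
    (h : resPE N q (ZMod p) (ZMod p) a
      + wPE N q (ZMod p) (ZMod p) (resPE N q (ZMod p) (ZMod p) b) = 0) :
    heckePE N ⟨ℓ, Fact.out⟩ (ZMod p) (ZMod p) a = ((ℓ : ZMod p) + 1) • a ∧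
      heckePE N ⟨ℓ, Fact.out⟩ (ZMod p) (ZMod p) b = ((ℓ : ZMod p) + 1) • b := by
  obtain ⟨h1, h2⟩ := ihara_modp hN hqN hp hp2 hℓN a b h
  have e : ∀ c : peHoms (Gamma0 N) (ZMod p) (ZMod p),
      ((ℓ : ZMod p) + 1) • c = (ℓ + 1) • c := by
    intro c
    have : ((ℓ : ZMod p) + 1) = ((ℓ + 1 : ℕ) : ZMod p) := by push_cast; rfl
    rw [this, Nat.cast_smul_eq_nsmul]
  exact ⟨by rw [e]; exact h1, by rw [e]; exact h2⟩

/-- **IHARA hypothesis of Core**, integer form on parabolic-elliptic homomorphisms, with no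
hypothesis left: `p` an odd prime, `q ∤ N` a prime, `ℓ ∤ N` a prime. -/
theorem ihara_pe {N q p : ℕ} [Fact q.Prime] (hN : 0 < N) (hqN : ¬ q ∣ N)
    (hp : p.Prime) (hp2 : p ≠ 2) {ℓ : ℕ} [Fact ℓ.Prime] (hℓN : ¬ ℓ ∣ N)
    (x y : Additive (Gamma0 N) →+ ℤ)
    (hx : IsPEHom (Gamma0 N) x) (hy : IsPEHom (Gamma0 N) y)
    (z : Additive (Gamma0 (N * q)) →+ ℤ)
    (hxy : resCoh N q x + wCoh N q (resCoh N q y) = (p : ℤ) • z) :
    (∃ x' : Additive (Gamma0 N) →+ ℤ, IsPEHom (Gamma0 N) x' ∧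
        heckeCoh N ⟨ℓ, Fact.out⟩ x - (ℓ + 1) • x = (p : ℤ) • x') ∧
      (∃ y' : Additive (Gamma0 N) →+ ℤ, IsPEHom (Gamma0 N) y' ∧
        heckeCoh N ⟨ℓ, Fact.out⟩ y - (ℓ + 1) • y = (p : ℤ) • y') :=
  ihara_pe_of_entry hqN hp.ne_zero
    (iharaEntry_of_prime hN (Fact.out : q.Prime) hqN hp hp2 (nsmul_zmod_eq_zero p)) hℓN
    x y hx hy z hxy

end

end Fermat.Agent.S41.Ihara.Eis
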