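/-
helper83 — S41 / WP-B1 (task 226), abstract part: a group generated by the images of two
injective homomorphisms `i 0, i 1 : G → Δ` in which no reduced alternating word is trivial is
the amalgam of the two copies of `G` over the intersection of the images.  Consequently a pair
of homomorphisms agreeing on the intersection extends to `Δ`.
-/
import Mathlib

set_option autoImplicit false

namespace Fermat.Agent.S41.Ihara

open Monoid Function

section Abstract

variable {Δ G K : Type*} [Group Δ] [Group G] [Group K]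

/-- The intersection of the two images. -/
def interRange (i : Fin 2 → G →* Δ) : Subgroup Δ := (i 0).range ⊓ (i 1).range

theorem interRange_le (i : Fin 2 → G →* Δ) (k : Fin 2) : interRange i ≤ (i k).range := by
  fin_cases k
  · exact inf_le_left
  · exact inf_le_right

/-- The two maps from the intersection back to `G`. -/
noncomputable def phi (i : Fin 2 → G →* Δ) (hinj : ∀ k, Injective (i k)) (k : Fin 2) :
    interRange i →* G :=
  (MonoidHom.ofInjective (hinj k)).symm.toMonoidHom.comp (Subgroup.inclusion (interRange_le i k))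

theorem i_phi (i : Fin 2 → G →* Δ) (hinj : ∀ k, Injective (i k)) (k : Fin 2)
    (h : interRange i) : i k (phi i hinj k h) = h :=
  MonoidHom.apply_ofInjective_symm (hinj k) _

/-- **Extension of homomorphisms from an amalgam given by generation + no reduced relation.** -/
theorem exists_hom_of_amalgam (i : Fin 2 → G →* Δ) (hinj : ∀ k, Injective (i k))
    (hgen : (i 0).range ⊔ (i 1).range = ⊤)
    (hpp : ∀ l : List (Σ _ : Fin 2, G), l ≠ [] → l.IsChain (fun a b => a.1 ≠ b.1) →
      (∀ a ∈ l, i a.1 a.2 ∉ interRange i) → ∀ h ∈ interRange i,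
      h * (l.map (fun a => i a.1 a.2)).prod ≠ 1)
    (f : Fin 2 → G →* K) (hf : ∀ g g', i 0 g = i 1 g' → f 0 g = f 1 g') :
    ∃ F : Δ →* K, ∀ k g, F (i k g) = f k g := by
  classical
  set φ : ∀ _ : Fin 2, interRange i →* G := phi i hinj with hφ
  have hφinj : ∀ k, Injective (φ k) := by
    intro k a b hab
    have := congrArg (i k) hab
    rw [hφ, i_phi, i_phi] at this
    exact Subtype.ext this
  let L : PushoutI φ →* Δ := PushoutI.lift (fun k => i k) (interRange i).subtype
    (fun k => by ext h; exact i_phi i hinj k h)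
  have hL_of : ∀ k g, L (PushoutI.of k g) = i k g := fun k g => PushoutI.lift_of _ _ _ _
  have hL_base : ∀ h, L (PushoutI.base φ h) = h := fun h => PushoutI.lift_base _ _ _ _
  have hLsurj : Surjective L := by
    rw [← MonoidHom.range_eq_top, eq_top_iff, ← hgen]
    refine sup_le ?_ ?_
    · rintro _ ⟨g, rfl⟩
      exact ⟨PushoutI.of 0 g, hL_of 0 g⟩
    · rintro _ ⟨g, rfl⟩
      exact ⟨PushoutI.of 1 g, hL_of 1 g⟩
  have hLinj : Injective L := by
    rw [injective_iff_map_eq_one]
    intro x hx
    obtain ⟨d⟩ := PushoutI.NormalWord.transversal_nonempty φ hφinj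
    set w := PushoutI.NormalWord.equiv (d := d) x with hw
    have hxw : x = w.prod := (PushoutI.NormalWord.equiv.symm_apply_apply x).symm
    have hLw : L w.prod = (w.head : Δ) * (w.toList.map (fun a => i a.1 a.2)).prod := by
      rw [PushoutI.NormalWord.prod, map_mul, hL_base]
      congr 1
      rw [CoprodI.Word.prod, map_list_prod, map_list_prod, List.map_map, List.map_map]
      congr 1
    by_cases hl : w.toList = []
    · rw [hxw, hLw, hl] at hx
      simp only [List.map_nil, List.prod_nil, mul_one] at hx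
      have hh : w.head = 1 := Subtype.ext hx
      rw [hxw, PushoutI.NormalWord.prod, hh, map_one, one_mul, CoprodI.Word.prod, hl]
      simp
    · exfalso
      refine hpp w.toList hl w.chain_ne ?_ w.head w.head.2 ?_
      · intro a ha hmem
        have h1 : a.2 ∈ d.set a.1 := w.normalized a.1 a.2 ha
        have h2 : a.2 ≠ 1 := w.ne_one a ha
        have h3 : a.2 ∈ (φ a.1).range :=
          ⟨⟨_, hmem⟩, hinj a.1 (i_phi i hinj a.1 ⟨_, hmem⟩)⟩
        have hc := (d.compl a.1).1
        have h4 := @hc (⟨a.2, h3⟩, ⟨1, d.one_mem a.1⟩) (⟨1, one_mem _⟩, ⟨a.2, h1⟩) (by simp)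
        exact h2 (congrArg (fun p => (p.1 : G)) h4)
      · rw [← hLw, ← hxw]
        exact hx
  let e : PushoutI φ ≃* Δ := MulEquiv.ofBijective L ⟨hLinj, hLsurj⟩
  have hcompat : ∀ k, (f k).comp (φ k) = (f 0).comp (φ 0) := by
    rw [Fin.forall_fin_two]
    refine ⟨rfl, ?_⟩
    ext h
    exact (hf _ _ (by rw [hφ, i_phi, i_phi])).symm
  let F' : PushoutI φ →* K := PushoutI.lift f ((f 0).comp (φ 0)) hcompat
  refine ⟨F'.comp e.symm.toMonoidHom, fun k g => ?_⟩
  have h1 : e.symm (i k g) = PushoutI.of k g := by
    rw [MulEquiv.symm_apply_eq]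
    exact (hL_of k g).symm
  show F' (e.symm (i k g)) = f k g
  rw [h1]
  exact PushoutI.lift_of _ _ _ _

/-- Uniqueness of the extension. -/
theorem hom_ext_of_gen (i : Fin 2 → G →* Δ) (hgen : (i 0).range ⊔ (i 1).range = ⊤)
    {F F' : Δ →* K} (h : ∀ k g, F (i k g) = F' (i k g)) : F = F' := by
  have hle : (i 0).range ⊔ (i 1).range ≤ F.eqLocus F' := by
    refine sup_le ?_ ?_
    · rintro _ ⟨g, rfl⟩
      exact h 0 g
    · rintro _ ⟨g, rfl⟩
      exact h 1 g
  rw [hgen] at hle
  exact MonoidHom.ext fun x => hle (Subgroup.mem_top x)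

end Abstract

end Fermat.Agent.S41.Ihara
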