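import Mathlib
import Fermat.Agent.S41.Ihara.Defs

/-!
# S41 / Ihara's lemma, elementary form: the Dirichlet descent (step (D))

If the Ihara symbol `S a r` vanishes for `a ≡ 1 mod N` and all large primes `r ≡ -1` modulo a
fixed modulus `m` (divisible by `N`), then `S a b = 0` for all `a ≡ 1 mod N` and all `b`:
by Dirichlet's theorem first replace `a` by a large prime `P ≡ a mod N b` (`shiftL`), then `b`
by a prime `r ≡ b mod P`, `r ≡ -1 mod m` (`shiftR`).
-/

set_option autoImplicit false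

namespace Fermat.Agent.S41.Ihara

/-- An element of an abelian group killed by an odd number and by `2` is zero. -/
theorem eq_zero_of_two_nsmul_of_odd_nsmul {V : Type*} [AddCommGroup V] {p : ℕ} (hp : Odd p)
    {v : V} (h2 : v + v = 0) (hpv : p • v = 0) : v = 0 := by
  obtain ⟨k, hk⟩ := hp
  have h2' : (2 : ℕ) • v = 0 := by rw [two_nsmul]; exact h2
  have : (2 * k + 1) • v = v := by
    rw [add_nsmul, mul_nsmul, h2', nsmul_zero, zero_add, one_nsmul]
  rw [← this, ← hk]
  exact hpv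

/-- `S (-1) 0 = 0` for a symbol with values in a group of odd exponent. -/
theorem IsIharaSymbol.neg_one_zero {N q p : ℕ} (hp : Odd p)
    {V : Type*} [AddCommGroup V] (hV : ∀ v : V, p • v = 0) {S : ℤ → ℤ → V} {κ : V}
    (hS : IsIharaSymbol N q S κ) : S (-1) 0 = 0 := by
  have h := hS.prod (-1) (-1) (-1) 0 0 (by simpa using isCoprime_one_left.neg_left) (by ring)
  have e1 : (-1 : ℤ) * (-1 + -1) - 1 = 1 := by ring
  have e2 : (0 : ℤ) * (-1 + -1) = 0 := by ring
  rw [e1, e2, hS.one] at h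
  exact eq_zero_of_two_nsmul_of_odd_nsmul hp h (hV _)

/-- **Step (D)**: the Dirichlet descent from the prime case. -/
theorem IsIharaSymbol.eq_zero_of_prime_case {N q p : ℕ} (hN : 0 < N) (hp : Odd p)
    {V : Type*} [AddCommGroup V] (hV : ∀ v : V, p • v = 0) {S : ℤ → ℤ → V} {κ : V}
    (hS : IsIharaSymbol N q S κ) (m B : ℕ) (hm : 0 < m)
    (hM : ∀ r : ℕ, r.Prime → B < r → (r : ℤ) ≡ -1 [ZMOD (m : ℤ)] →
        ∀ a : ℤ, a ≡ 1 [ZMOD (N : ℤ)] → IsCoprime a ((N : ℤ) * r) → S a r = 0) :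
    ∀ a b : ℤ, a ≡ 1 [ZMOD (N : ℤ)] → IsCoprime a ((N : ℤ) * b) → S a b = 0 := by
  intro a b ha hab
  by_cases hb : b = 0
  · subst hb
    rw [mul_zero] at hab
    have hu : IsUnit a := by
      rcases hab with ⟨u, v, huv⟩
      rw [mul_zero, add_zero] at huv
      exact IsUnit.of_mul_eq_one u (by rw [mul_comm]; exact huv)
    rcases Int.isUnit_iff.mp hu with rfl | rfl
    · exact hS.one 0
    · exact hS.neg_one_zero hp hV
  -- first Dirichlet: a prime P ≡ a mod N |b|, P > m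
  have hQ : N * b.natAbs ≠ 0 := by
    have : b.natAbs ≠ 0 := Int.natAbs_ne_zero.mpr hb
    positivity
  have habs : IsCoprime a ((N * b.natAbs : ℕ) : ℤ) := by
    push_cast
    rcases abs_choice b with h | h
    · rw [h]; exact hab
    · rw [h, mul_neg]
      exact hab.neg_right
  obtain ⟨P, hPm, hPprime, hPa⟩ := Nat.forall_exists_prime_gt_and_zmodEq m hQ habs
  -- P = a + N * x * b
  obtain ⟨x, hx⟩ : ∃ x : ℤ, (P : ℤ) = a + (N : ℤ) * x * b := by
    have hdvd : ((N * b.natAbs : ℕ) : ℤ) ∣ (P : ℤ) - a := (Int.modEq_iff_dvd.mp hPa.symm)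
    have hdvd' : (N : ℤ) * b ∣ (P : ℤ) - a := by
      have : (N : ℤ) * b ∣ ((N * b.natAbs : ℕ) : ℤ) := by
        push_cast
        exact mul_dvd_mul_left _ ((dvd_abs b b).mpr dvd_rfl)
      exact this.trans hdvd
    obtain ⟨t, ht⟩ := hdvd'
    exact ⟨t, by linarith⟩
  have hSP : S a b = S (P : ℤ) b := by
    rw [hx, hS.shiftL a b x hab]
  have hPb : IsCoprime (P : ℤ) ((N : ℤ) * b) := by
    rw [hx]
    have : a + (N : ℤ) * x * b = a + x * ((N : ℤ) * b) := by ring
    rw [this]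
    exact hab.add_mul_right_left x
  have hP1 : (P : ℤ) ≡ 1 [ZMOD (N : ℤ)] := by
    have : (P : ℤ) ≡ a [ZMOD (N : ℤ)] := by
      rw [hx]
      have : a + (N : ℤ) * x * b = a + (N : ℤ) * (x * b) := by ring
      rw [this]
      exact Int.modEq_iff_dvd.mpr ⟨-(x * b), by ring⟩
    exact this.trans ha
  -- second Dirichlet: a prime r ≡ b mod P, r ≡ -1 mod m, r > B
  have hcopPm : Nat.Coprime P m := by
    rw [Nat.Prime.coprime_iff_not_dvd hPprime]
    intro hdvd
    have := Nat.le_of_dvd hm hdvd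
    omega
  have hPbb : IsCoprime (b : ℤ) (P : ℤ) := (IsCoprime.of_mul_right_right hPb).symm
  -- CRT
  obtain ⟨c, hc⟩ : ∃ c : ℤ, c ≡ b [ZMOD (P : ℤ)] ∧ c ≡ -1 [ZMOD (m : ℤ)] := by
    have hcop : IsCoprime (P : ℤ) (m : ℤ) := Nat.isCoprime_iff_coprime.mpr hcopPm
    obtain ⟨u, v, huv⟩ := hcop
    -- u * P + v * m = 1
    refine ⟨b * (v * m) + (-1) * (u * P), ?_, ?_⟩
    · apply Int.modEq_iff_dvd.mpr
      refine ⟨b * u + u, ?_⟩
      have : v * (m : ℤ) = 1 - u * P := by linarith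
      rw [this]
      ring
    · apply Int.modEq_iff_dvd.mpr
      refine ⟨-(b * v) - v, ?_⟩
      have : u * (P : ℤ) = 1 - v * m := by linarith
      rw [this]
      ring
  have hccop : IsCoprime c ((P * m : ℕ) : ℤ) := by
    push_cast
    apply IsCoprime.mul_right
    · -- c ≡ b mod P, b coprime to P
      obtain ⟨t, ht⟩ := Int.modEq_iff_dvd.mp hc.1
      have : c = b + (-t) * (P : ℤ) := by linarith
      rw [this]
      exact (IsCoprime.add_mul_right_left_iff).mpr hPbb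
    · obtain ⟨t, ht⟩ := Int.modEq_iff_dvd.mp hc.2
      have : c = -1 + (-t) * (m : ℤ) := by linarith
      rw [this]
      exact (IsCoprime.add_mul_right_left_iff).mpr isCoprime_one_left.neg_left
  have hPm0 : P * m ≠ 0 := Nat.mul_ne_zero hPprime.ne_zero hm.ne'
  obtain ⟨r, hrB, hrprime, hrc⟩ := Nat.forall_exists_prime_gt_and_zmodEq B hPm0 hccop
  have hrP : (r : ℤ) ≡ b [ZMOD (P : ℤ)] := by
    have : (r : ℤ) ≡ c [ZMOD (P : ℤ)] := by
      apply Int.ModEq.of_mul_right (m : ℤ)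
      have := hrc
      push_cast at this
      exact this
    exact this.trans hc.1
  have hrm : (r : ℤ) ≡ -1 [ZMOD (m : ℤ)] := by
    have : (r : ℤ) ≡ c [ZMOD (m : ℤ)] := by
      apply Int.ModEq.of_mul_left (P : ℤ)
      have := hrc
      push_cast at this
      exact this
    exact this.trans hc.2
  obtain ⟨y, hy⟩ : ∃ y : ℤ, (r : ℤ) = b + y * (P : ℤ) := by
    obtain ⟨t, ht⟩ := Int.modEq_iff_dvd.mp hrP.symm
    exact ⟨t, by linarith⟩
  have hSr : S (P : ℤ) b = S (P : ℤ) r := by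
    rw [hy, hS.shiftR (P : ℤ) b y hPb]
  -- IsCoprime P (N * r)
  have hPNr : IsCoprime (P : ℤ) ((N : ℤ) * r) := by
    apply IsCoprime.mul_right
    · exact IsCoprime.of_mul_right_left hPb
    · rw [hy]
      exact ((IsCoprime.add_mul_right_left_iff).mpr hPbb).symm
  rw [hSP, hSr]
  exact hM r hrprime hrB hrm (P : ℤ) hP1 hPNr

end Fermat.Agent.S41.Ihara
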