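import Fermat.Agent.S41.Ihara.Main
import Fermat.Agent.S41.Ihara.EisBridge

/-!
# S41 / Ihara's lemma: final forms

* `iharaEntry_of_torsion` : the entry form `Eis.IharaEntry N q V` for every abelian group `V`
  killed by an odd prime `p` (`q ∤ N` prime, `N > 0`);
* `iharaKills_of_torsion` : the `SL(2, ℤ)` form `Eis.IharaKills N q V`;
* `ihara_pe` : the IHARA hypothesis of the Core argument, for integer valued
  parabolic-elliptic homomorphisms and every prime `ℓ ∤ N`.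
-/

set_option autoImplicit false

open scoped MatrixGroups
open CongruenceSubgroup ModularForm ModularCurve.Period

namespace Fermat.Agent.S41.Ihara

open Fermat.Agent.ESJ.ParHom Fermat.Agent.S41.Coh

/-- **Ihara's lemma, entry form**, for a group killed by an odd prime. -/
theorem iharaEntry_of_torsion {N q p : ℕ} (hN : 0 < N) (hq : q.Prime) (hqN : ¬ q ∣ N)
    (hp : p.Prime) (hp2 : p ≠ 2) {V : Type*} [AddCommGroup V] (hV : ∀ v : V, p • v = 0) :
    Eis.IharaEntry N q V :=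
  fun F₁ F₂ hF₁ hF₂ hu₁ hl₁ hu₂ hl₂ hK =>
    ihara_int hN hq hqN hp hp2 hV F₁ F₂ hF₁ hF₂ hu₁ hl₁ hu₂ hl₂ hK

/-- **Ihara's lemma, `SL(2, ℤ)` form**, for a group killed by an odd prime. -/
theorem iharaKills_of_torsion {N q p : ℕ} (hN : 0 < N) (hq : q.Prime) (hqN : ¬ q ∣ N)
    (hp : p.Prime) (hp2 : p ≠ 2) {V : Type*} [AddCommGroup V] (hV : ∀ v : V, p • v = 0) :
    Eis.IharaKills N q V :=
  Eis.iharaKills_of_entry (iharaEntry_of_torsion hN hq hqN hp hp2 hV)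

/-- **IHARA hypothesis of Core**: if `res x + w (res y) ∈ p · Hom(Γ₀(N q), ℤ)` for integer valued
parabolic-elliptic homomorphisms `x, y` of `Γ₀(N)`, then `(T_ℓ - ℓ - 1) x` and `(T_ℓ - ℓ - 1) y`
are divisible by `p`, for every prime `ℓ ∤ N`. -/
theorem ihara_pe {N q p : ℕ} [Fact q.Prime] (hN : 0 < N) (hqN : ¬ q ∣ N) (hp : p.Prime)
    (hp2 : p ≠ 2) {ℓ : ℕ} [Fact ℓ.Prime] (hℓN : ¬ ℓ ∣ N)
    (x y : Additive (Gamma0 N) →+ ℤ)
    (hx : IsPEHom (Gamma0 N) x) (hy : IsPEHom (Gamma0 N) y)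
    (z : Additive (Gamma0 (N * q)) →+ ℤ)
    (hxy : resCoh N q x + wCoh N q (resCoh N q y) = (p : ℤ) • z) :
    (∃ x' : Additive (Gamma0 N) →+ ℤ, IsPEHom (Gamma0 N) x' ∧
        heckeCoh N ⟨ℓ, Fact.out⟩ x - (ℓ + 1) • x = (p : ℤ) • x') ∧
      (∃ y' : Additive (Gamma0 N) →+ ℤ, IsPEHom (Gamma0 N) y' ∧
        heckeCoh N ⟨ℓ, Fact.out⟩ y - (ℓ + 1) • y = (p : ℤ) • y') :=
  Eis.ihara_pe_of_entry hqN hp.ne_zero
    (iharaEntry_of_torsion hN Fact.out hqN hp hp2 (V := ZMod p)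
      (fun v => by rw [nsmul_eq_mul, ZMod.natCast_self, zero_mul]))
    hℓN x y hx hy z hxy

end Fermat.Agent.S41.Ihara
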