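import Mathlib

/-!
# S41 / Ihara's lemma, elementary form: the finite lemma

A function `h : (ZMod r)ˣ → V` which is multiplicative with respect to a subgroup `W` with at
least three elements and which satisfies the "Möbius invariance"
`h (g x) + h (y / g) = h x + h y` for `g = (w₀ x y + 1) / (x y + 1)` (`w₀ ∈ W`, `w₀ ≠ 1`)
is a homomorphism.
-/

set_option autoImplicit false

namespace Fermat.Agent.S41.Ihara

open Polynomial

section Abstract

variable {G : Type*} [CommGroup G] {V : Type*} [AddCommGroup V]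

/-- The elements `g` with `h (g u) = h u + h g` for all `u`. -/
def mobMulSubgroup (h : G → V) (h1 : h 1 = 0) : Subgroup G where
  carrier := {g | ∀ u, h (g * u) = h u + h g}
  mul_mem' := by
    intro a b ha hb u
    have hab : h (a * b) = h b + h a := ha b
    show h (a * b * u) = h u + h (a * b)
    rw [mul_assoc, ha (b * u), hb u, hab]
    abel
  one_mem' := by
    intro u
    simp [h1]
  inv_mem' := by
    intro a ha u
    have e1 : h (a * (a⁻¹ * u)) = h (a⁻¹ * u) + h a := ha _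
    have e2 : h (a * a⁻¹) = h a⁻¹ + h a := ha _
    rw [mul_inv_cancel_left] at e1
    rw [mul_inv_cancel, h1] at e2
    show h (a⁻¹ * u) = h u + h a⁻¹
    have e3 : h a⁻¹ = - h a := eq_neg_of_add_eq_zero_left e2.symm
    rw [e3, e1]
    abel

theorem mem_mobMulSubgroup (h : G → V) (h1 : h 1 = 0) (g : G) :
    g ∈ mobMulSubgroup h h1 ↔ ∀ u, h (g * u) = h u + h g := Iff.rfl

/-- CLAIM A. -/
theorem mob_claimA (h : G → V) (h1 : h 1 = 0) (Λ gΛ : G)
    (hg : ∀ y : G, h (gΛ * (Λ * y⁻¹)) + h (y * gΛ⁻¹) = h (Λ * y⁻¹) + h y)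
    (hcl : Subgroup.closure ((mobMulSubgroup h h1 : Set G) ∪ {gΛ}) = ⊤) :
    ∀ y, h (Λ * y⁻¹) + h y = h Λ := by
  set R : G → V := fun y => h (Λ * y⁻¹) + h y with hR
  let S : Subgroup G :=
    { carrier := {g | ∀ y, R (y * g⁻¹) = R y}
      mul_mem' := by
        intro a b ha hb y
        show R (y * (a * b)⁻¹) = R y
        have : y * (a * b)⁻¹ = (y * b⁻¹) * a⁻¹ := by
          rw [mul_inv_rev, mul_assoc]
        rw [this, ha (y * b⁻¹), hb y]
      one_mem' := by
        intro y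
        simp
      inv_mem' := by
        intro a ha y
        show R (y * a⁻¹⁻¹) = R y
        have := ha (y * a)
        rw [mul_inv_cancel_right] at this
        rw [inv_inv]
        exact this.symm }
  have hMS : (mobMulSubgroup h h1 : Set G) ∪ {gΛ} ⊆ S := by
    rintro g (hgM | hgg)
    · -- g ∈ M
      intro y
      have hgM' : ∀ u, h (g * u) = h u + h g := hgM
      have hginv : ∀ u, h (g⁻¹ * u) = h u + h g⁻¹ := (mobMulSubgroup h h1).inv_mem hgM
      have e2 : h (g * g⁻¹) = h g⁻¹ + h g := hgM' _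
      rw [mul_inv_cancel, h1] at e2
      have e3 : h g⁻¹ = - h g := eq_neg_of_add_eq_zero_left e2.symm
      show h (Λ * (y * g⁻¹)⁻¹) + h (y * g⁻¹) = h (Λ * y⁻¹) + h y
      have a1 : Λ * (y * g⁻¹)⁻¹ = g * (Λ * y⁻¹) := by
        rw [mul_inv_rev, inv_inv]
        rw [mul_left_comm]
      have a2 : y * g⁻¹ = g⁻¹ * y := mul_comm _ _
      rw [a1, a2, hgM' (Λ * y⁻¹), hginv y, e3]
      abel
    · -- g = gΛ
      rw [Set.mem_singleton_iff] at hgg
      subst hgg
      intro y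
      show h (Λ * (y * g⁻¹)⁻¹) + h (y * g⁻¹) = h (Λ * y⁻¹) + h y
      have a1 : Λ * (y * g⁻¹)⁻¹ = g * (Λ * y⁻¹) := by
        rw [mul_inv_rev, inv_inv]
        rw [mul_left_comm]
      rw [a1]
      exact hg y
  have hStop : S = ⊤ := by
    rw [eq_top_iff, ← hcl]
    exact (Subgroup.closure_le S).mpr hMS
  intro y
  have hy : y ∈ S := by rw [hStop]; trivial
  have := hy y
  rw [mul_inv_cancel] at this
  show R y = h Λ
  rw [← this]
  simp [hR, h1]

/-- CLAIM B. -/
theorem mob_claimB (h : G → V) (h1 : h 1 = 0) (Λ Λ' : G)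
    (hΛ : ∀ y, h (Λ * y⁻¹) + h y = h Λ) (hΛ' : ∀ y, h (Λ' * y⁻¹) + h y = h Λ') :
    Λ * Λ'⁻¹ ∈ mobMulSubgroup h h1 := by
  intro u
  have e1 := hΛ (Λ' * u⁻¹)
  have e2 := hΛ' (Λ' * u⁻¹)
  have e3 := hΛ Λ'
  have a1 : Λ * (Λ' * u⁻¹)⁻¹ = Λ * Λ'⁻¹ * u := by
    rw [mul_inv_rev, inv_inv, mul_assoc, mul_comm u]
  have a2 : Λ' * (Λ' * u⁻¹)⁻¹ = u := by
    rw [mul_inv_rev, inv_inv, mul_comm u, mul_inv_cancel_left]
  rw [a1] at e1
  rw [a2] at e2
  -- e1 : h (Λ Λ'⁻¹ u) + h (Λ' u⁻¹) = h Λ ; e2 : h u + h (Λ' u⁻¹) = h Λ' ; e3 : h (Λ Λ'⁻¹) + h Λ' = h Λ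
  have e4 : h (Λ * Λ'⁻¹ * u) = h Λ - h (Λ' * u⁻¹) := eq_sub_of_add_eq e1
  have e5 : h (Λ' * u⁻¹) = h Λ' - h u := eq_sub_of_add_eq' e2
  have e6 : h (Λ * Λ'⁻¹) = h Λ - h Λ' := eq_sub_of_add_eq e3
  rw [e4, e5, e6]
  abel

end Abstract

section Main

variable {r : ℕ} [Fact r.Prime] {V : Type*} [AddCommGroup V]

/-- The polynomial used in the counting step. -/
noncomputable def mobPoly (k : ℕ) (c w z : ZMod r) : (ZMod r)[X] :=
  C ((-1 : ZMod r) ^ k) * (X + C (-1 : ZMod r)) ^ k - C c * (X + C (-w)) ^ k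
    - C ((-1 : ZMod r) ^ k - c) * (X ^ k - C z)

theorem mobPoly_coeff (k : ℕ) (c w z : ZMod r) (m : ℕ) :
    (mobPoly k c w z).coeff m =
      (-1 : ZMod r) ^ k * ((-1 : ZMod r) ^ (k - m) * (k.choose m : ZMod r))
        - c * ((-w) ^ (k - m) * (k.choose m : ZMod r))
        - ((-1 : ZMod r) ^ k - c) * ((if m = k then 1 else 0) - (if m = 0 then z else 0)) := by
  unfold mobPoly
  rw [coeff_sub, coeff_sub, coeff_C_mul, coeff_C_mul, coeff_C_mul, coeff_X_add_C_pow,
    coeff_X_add_C_pow, coeff_sub, coeff_X_pow, coeff_C]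

theorem mobPoly_eval (k : ℕ) (c w z x : ZMod r) :
    (mobPoly k c w z).eval x =
      (1 - x) ^ k - c * (x - w) ^ k - ((-1 : ZMod r) ^ k - c) * (x ^ k - z) := by
  unfold mobPoly
  simp only [eval_sub, eval_mul, eval_C, eval_pow, eval_add, eval_X]
  have : (-1 : ZMod r) ^ k * (x + -1) ^ k = (1 - x) ^ k := by
    rw [← mul_pow]
    congr 1
    ring
  rw [this]
  ring

theorem mobPoly_natDegree_lt (k : ℕ) (hk : k ≠ 0) (c w z : ZMod r)
    (hP : mobPoly k c w z ≠ 0) : (mobPoly k c w z).natDegree < k := by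
  rw [natDegree_lt_iff_degree_lt hP, degree_lt_iff_coeff_zero]
  intro m hm
  rw [mobPoly_coeff]
  rcases hm.eq_or_lt with rfl | hlt
  · simp [hk]
  · have h0 : m ≠ 0 := by omega
    have h1 : m ≠ k := by omega
    rw [Nat.choose_eq_zero_of_lt hlt]
    simp [h0, h1]

theorem hom_of_mobius_invariance
    (h : (ZMod r)ˣ → V) (h1 : h 1 = 0)
    (W : Subgroup (ZMod r)ˣ) (hW3 : 3 ≤ Nat.card W)
    (hb : ∀ w ∈ W, ∀ x, h (w * x) = h x + h w)
    (w₀ : (ZMod r)ˣ) (hw₀ : w₀ ∈ W) (hw₀1 : w₀ ≠ 1)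
    (hc : ∀ x y g : (ZMod r)ˣ, ((x * y : (ZMod r)ˣ) : ZMod r) + 1 ≠ 0 →
        (g : ZMod r) * (((x * y : (ZMod r)ˣ) : ZMod r) + 1) = ((w₀ * x * y : (ZMod r)ˣ) : ZMod r) + 1 →
        h (g * x) + h (y * g⁻¹) = h x + h y) :
    ∀ x y, h (x * y) = h x + h y := by
  classical
  have hr : r.Prime := Fact.out
  set M : Subgroup (ZMod r)ˣ := mobMulSubgroup h h1 with hM
  have hWM : W ≤ M := fun w hw u => hb w hw u
  suffices hMtop : M = ⊤ by
    intro x y
    have hx : x ∈ M := by rw [hMtop]; trivial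
    have := hx y
    rw [this]
    abel
  by_contra hMne
  obtain ⟨ζ, hζ⟩ := IsCyclic.exists_generator (α := (ZMod r)ˣ)
  have hζM : ζ ∉ M := by
    intro hmem
    apply hMne
    rw [eq_top_iff]
    intro x _
    exact (Subgroup.zpowers_le.mpr hmem) (hζ x)
  set k := Nat.card M with hk
  have hk3 : 3 ≤ k := le_trans hW3 (Subgroup.card_le_of_le hWM)
  have hkr : k < r := by
    have hdvd : k ∣ Nat.card (ZMod r)ˣ := Subgroup.card_subgroup_dvd_card M
    have hcard : Nat.card (ZMod r)ˣ = r - 1 := by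
      rw [Nat.card_eq_fintype_card, ZMod.card_units_eq_totient, Nat.totient_prime hr]
    have hr2 : 2 ≤ r := hr.two_le
    rw [hcard] at hdvd
    have := Nat.le_of_dvd (by omega) hdvd
    omega
  have hw₀F : (w₀ : ZMod r) ≠ 1 := by
    intro e
    exact hw₀1 (Units.ext (by simpa using e))
  -- the key facts for the elements of the coset ζ M
  have key : ∀ x : (ZMod r)ˣ, ζ⁻¹ * x ∈ M →
      ∃ Λ : (ZMod r)ˣ, (Λ : ZMod r) * ((x : ZMod r) - (w₀ : ZMod r)) = 1 - (x : ZMod r) ∧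
        ∀ y, h (Λ * y⁻¹) + h y = h Λ := by
    intro x hx
    have hxM : x ∉ M := by
      intro hxm
      apply hζM
      have : ζ = x * (ζ⁻¹ * x)⁻¹ := by group
      rw [this]
      exact M.mul_mem hxm (M.inv_mem hx)
    have hx1 : (x : ZMod r) ≠ 1 := by
      intro e
      apply hxM
      have : x = 1 := Units.ext (by simpa using e)
      rw [this]
      exact M.one_mem
    have hxw : (x : ZMod r) ≠ (w₀ : ZMod r) := by
      intro e
      apply hxM
      have : x = w₀ := Units.ext e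
      rw [this]
      exact hWM hw₀
    have hd : (x : ZMod r) - (w₀ : ZMod r) ≠ 0 := sub_ne_zero.mpr hxw
    have hn : (1 : ZMod r) - (x : ZMod r) ≠ 0 := sub_ne_zero.mpr (Ne.symm hx1)
    have hw1 : (1 : ZMod r) - (w₀ : ZMod r) ≠ 0 := sub_ne_zero.mpr (Ne.symm hw₀F)
    set lam : ZMod r := (1 - (x : ZMod r)) / ((x : ZMod r) - (w₀ : ZMod r)) with hlam
    have hlam0 : lam ≠ 0 := div_ne_zero hn hd
    refine ⟨Units.mk0 lam hlam0, ?_, ?_⟩
    · rw [Units.val_mk0, hlam]
      field_simp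
    · apply mob_claimA h h1 (Units.mk0 lam hlam0) x
      · intro y
        have e : Units.mk0 lam hlam0 * y⁻¹ * y = Units.mk0 lam hlam0 := inv_mul_cancel_right _ _
        have e' : w₀ * (Units.mk0 lam hlam0 * y⁻¹) * y = w₀ * Units.mk0 lam hlam0 := by
          rw [mul_assoc, e]
        apply hc (Units.mk0 lam hlam0 * y⁻¹) y x
        · rw [e, Units.val_mk0, hlam]
          have : (1 - (x : ZMod r)) / ((x : ZMod r) - (w₀ : ZMod r)) + 1
              = (1 - (w₀ : ZMod r)) / ((x : ZMod r) - (w₀ : ZMod r)) := by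
            field_simp
            ring
          rw [this]
          exact div_ne_zero hw1 hd
        · rw [e, e', Units.val_mul, Units.val_mk0, hlam]
          field_simp
          ring
      · rw [eq_top_iff]
        intro g _
        have hζcl : ζ ∈ Subgroup.closure ((M : Set (ZMod r)ˣ) ∪ {x}) := by
          have : ζ = x * (ζ⁻¹ * x)⁻¹ := by group
          rw [this]
          apply Subgroup.mul_mem
          · exact Subgroup.subset_closure (Or.inr rfl)
          · apply Subgroup.inv_mem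
            exact Subgroup.subset_closure (Or.inl hx)
        exact (Subgroup.zpowers_le.mpr hζcl) (hζ g)
  -- the constant c
  obtain ⟨Λζ, hΛζ, hΛζ'⟩ := key ζ (by rw [inv_mul_cancel]; exact M.one_mem)
  set c : ZMod r := (Λζ : ZMod r) ^ k with hcdef
  have hc0 : c ≠ 0 := pow_ne_zero _ (Units.ne_zero Λζ)
  have hpowM : ∀ g ∈ M, g ^ k = 1 := by
    intro g hg
    have h1' : (⟨g, hg⟩ : M) ^ k = 1 := pow_card_eq_one'
    have h2' := congrArg (fun u : M => (u : (ZMod r)ˣ)) h1'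
    simp only [Subgroup.coe_pow, Subgroup.coe_one] at h2'
    exact h2'
  have hroot : ∀ m : M, (mobPoly k c (w₀ : ZMod r) ((ζ : ZMod r) ^ k)).eval
      (((ζ * (m : (ZMod r)ˣ) : (ZMod r)ˣ)) : ZMod r) = 0 := by
    intro m
    set x : (ZMod r)ˣ := ζ * (m : (ZMod r)ˣ) with hx
    obtain ⟨Λ, hΛ, hΛ'⟩ := key x (by rw [hx, inv_mul_cancel_left]; exact m.2)
    have hmem : Λ * Λζ⁻¹ ∈ M := mob_claimB h h1 Λ Λζ hΛ' hΛζ'
    have hpow := hpowM _ hmem
    have hΛk : (Λ : ZMod r) ^ k = c := by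
      have : Λ ^ k = Λζ ^ k := by
        rw [mul_pow, inv_pow] at hpow
        exact mul_inv_eq_one.mp hpow
      have := congrArg (fun u : (ZMod r)ˣ => (u : ZMod r)) this
      simpa using this
    have hxk : (x : ZMod r) ^ k = (ζ : ZMod r) ^ k := by
      have : x ^ k = ζ ^ k := by
        rw [hx, mul_pow, hpowM _ m.2, mul_one]
      have := congrArg (fun u : (ZMod r)ˣ => (u : ZMod r)) this
      simpa using this
    rw [mobPoly_eval, hxk, sub_self, mul_zero, sub_zero, ← hΛ, mul_pow, hΛk, sub_self]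
  have hPzero : mobPoly k c (w₀ : ZMod r) ((ζ : ZMod r) ^ k) = 0 := by
    by_contra hP
    have hdeg := mobPoly_natDegree_lt k (by omega) c (w₀ : ZMod r) ((ζ : ZMod r) ^ k) hP
    apply hP
    have : Fintype M := Fintype.ofFinite M
    apply eq_zero_of_natDegree_lt_card_of_eval_eq_zero _
      (f := fun m : M => (((ζ * (m : (ZMod r)ˣ) : (ZMod r)ˣ)) : ZMod r)) _ hroot
    · rw [← Nat.card_eq_fintype_card]
      exact hdeg
    · intro m m' hmm
      have : ζ * (m : (ZMod r)ˣ) = ζ * (m' : (ZMod r)ˣ) := Units.ext hmm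
      exact Subtype.ext (mul_left_cancel this)
  -- coefficients
  obtain ⟨n, hn⟩ : ∃ n, k = n + 3 := ⟨k - 3, by omega⟩
  have hkF : (k : ZMod r) ≠ 0 := by
    rw [Ne, ZMod.natCast_eq_zero_iff]
    intro hdvd
    have := Nat.le_of_dvd (by omega) hdvd
    omega
  have hchF : ((k.choose 2 : ℕ) : ZMod r) ≠ 0 := by
    rw [Ne, ZMod.natCast_eq_zero_iff]
    intro hdvd
    have h2 : k.choose 2 * 2 = k * (k - 1) := by
      rw [Nat.choose_two_right]
      exact Nat.div_mul_cancel (Nat.even_mul_pred_self k).two_dvd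
    have hdvd' : r ∣ k * (k - 1) := by
      rw [← h2]
      exact Dvd.dvd.mul_right hdvd 2
    rcases (Nat.Prime.dvd_mul hr).mp hdvd' with h' | h'
    · have := Nat.le_of_dvd (by omega) h'
      omega
    · have := Nat.le_of_dvd (by omega) h'
      omega
  have hco1 := congrArg (fun P : (ZMod r)[X] => P.coeff (n + 2)) hPzero
  have hco2 := congrArg (fun P : (ZMod r)[X] => P.coeff (n + 1)) hPzero
  simp only [mobPoly_coeff, coeff_zero] at hco1 hco2
  have hch1 : k.choose (n + 2) = k := by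
    rw [hn]
    exact Nat.choose_succ_self_right (n + 2)
  have hch2 : k.choose (n + 1) = k.choose 2 := by
    rw [hn]
    exact Nat.choose_symm_of_eq_add (by omega)
  have hs1 : k - (n + 2) = 1 := by omega
  have hs2 : k - (n + 1) = 2 := by omega
  have hi1 : ¬ (n + 2 = k) := by omega
  have hi2 : ¬ (n + 1 = k) := by omega
  rw [hs1, hch1, if_neg hi1, if_neg (by omega : ¬ (n + 2 = 0))] at hco1
  rw [hs2, hch2, if_neg hi2, if_neg (by omega : ¬ (n + 1 = 0))] at hco2
  have hE1 : c * (w₀ : ZMod r) = (-1 : ZMod r) ^ k := by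
    have : (k : ZMod r) * (c * (w₀ : ZMod r) - (-1 : ZMod r) ^ k) = 0 := by
      linear_combination hco1
    rcases mul_eq_zero.mp this with h' | h'
    · exact absurd h' hkF
    · exact sub_eq_zero.mp h'
  have hE2 : c * (w₀ : ZMod r) ^ 2 = (-1 : ZMod r) ^ k := by
    have : ((k.choose 2 : ℕ) : ZMod r) * ((-1 : ZMod r) ^ k - c * (w₀ : ZMod r) ^ 2) = 0 := by
      linear_combination hco2
    rcases mul_eq_zero.mp this with h' | h'
    · exact absurd h' hchF
    · exact (sub_eq_zero.mp h').symm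
  have hfin : c * (w₀ : ZMod r) * ((w₀ : ZMod r) - 1) = 0 := by
    linear_combination hE2 - hE1
  rcases mul_eq_zero.mp hfin with h' | h'
  · rcases mul_eq_zero.mp h' with h'' | h''
    · exact hc0 h''
    · exact Units.ne_zero w₀ h''
  · exact hw₀F (sub_eq_zero.mp h')

end Main

end Fermat.Agent.S41.Ihara
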