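import Fermat.Agent.S41.Ihara.SymbolBasics

set_option autoImplicit false

namespace Fermat.Agent.S41.Ihara

variable {N q : ℕ} {V : Type*} [AddCommGroup V] {S : ℤ → ℤ → V} {κ : V}

/-- The function on `(ZMod r)ˣ` attached to the symbol: `x ↦ S a r`, `a ≡ 1 mod N`, `a ≡ x mod r`. -/
def hfun (N r : ℕ) (S : ℤ → ℤ → V) (x : (ZMod r)ˣ) : V := S (lift N r (x : ZMod r)) r

theorem natCast_ne_zero_of_coprime {N r : ℕ} (hr : r.Prime) (hrN : Nat.Coprime r N) :
    (N : ZMod r) ≠ 0 := by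
  intro h
  rw [ZMod.natCast_eq_zero_iff] at h
  have := Nat.eq_one_of_dvd_coprimes hrN (dvd_refl r) h
  exact hr.one_lt.ne' this

theorem IsIharaSymbol.eq_hfun (hS : IsIharaSymbol N q S κ) {r : ℕ} (hr : r.Prime)
    (hrN : Nat.Coprime r N) {a : ℤ} (ha : a ≡ 1 [ZMOD N]) (x : (ZMod r)ˣ)
    (hx : (a : ZMod r) = x) : S a r = hfun N r S x := by
  have : Fact r.Prime := ⟨hr⟩
  unfold hfun
  refine hS.eq_of_cast_eq hr hrN ha (lift_modEq N r _) ?_ ?_
  · rw [lift_cast (natCast_ne_zero_of_coprime hr hrN), hx]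
  · rw [hx]; exact x.ne_zero

theorem IsIharaSymbol.hfun_pow_mul (hS : IsIharaSymbol N q S κ) (hqN : Nat.Coprime q N)
    {r : ℕ} (hr : r.Prime) (hrN : Nat.Coprime r N) (hqr : Nat.Coprime q r) (i : ℕ)
    (hi : (q : ℤ) ^ (2 * i) ≡ 1 [ZMOD N]) (x : (ZMod r)ˣ) :
    hfun N r S (ZMod.unitOfCoprime q hqr ^ (2 * i) * x) = hfun N r S x + i • κ := by
  have : Fact r.Prime := ⟨hr⟩
  have hNr := natCast_ne_zero_of_coprime hr hrN
  set a := lift N r (x : ZMod r) with ha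
  have haN : a ≡ 1 [ZMOD N] := lift_modEq N r _
  have har : (a : ZMod r) = x := lift_cast hNr _
  have hcop : IsCoprime a ((N : ℤ) * r) :=
    isCoprime_mul_of_modEq_one hr haN (by rw [har]; exact x.ne_zero)
  have hqN' : IsCoprime (q : ℤ) (N : ℤ) := by exact_mod_cast Nat.isCoprime_iff_coprime.mpr hqN
  have hqr' : IsCoprime (q : ℤ) (r : ℤ) := by exact_mod_cast Nat.isCoprime_iff_coprime.mpr hqr
  have h1 := hS.mulq_pow hqN' a r hcop hqr' i
  have h2 : S ((q : ℤ) ^ (2 * i) * a) r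
      = hfun N r S (ZMod.unitOfCoprime q hqr ^ (2 * i) * x) := by
    refine hS.eq_hfun hr hrN ?_ _ ?_
    · have := hi.mul haN
      simpa using this
    · push_cast
      rw [har, ZMod.coe_unitOfCoprime]
  rw [← h2, h1]
  rfl

end Fermat.Agent.S41.Ihara
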