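import Mathlib

/-!
# S41 / Ihara's lemma, elementary form: the arithmetic lemma `exists_sigma`

Existence of the auxiliary number `σ` (a prime, or twice a prime, by Dirichlet's theorem) and of
an exponent `i` such that `q ^ (2 i) ≡ 1` modulo `σ` (with cofactor divisible by `N`), with
prescribed class of `σ` modulo `N` and `r` and prescribed value of `q ^ (2 i)` modulo `r`.
-/

set_option autoImplicit false

namespace Fermat.Agent.S41.Ihara

/-- Exponents congruent modulo `L` give the same power of an element with `x ^ (2 L) = 1`. -/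
theorem pow_two_mul_eq_of_modEq {M : Type*} [Monoid M] (x : M) {L i j : ℕ}
    (hx : x ^ (2 * L) = 1) (hij : i ≡ j [MOD L]) : x ^ (2 * i) = x ^ (2 * j) := by
  have key : ∀ n : ℕ, x ^ (2 * n) = x ^ (2 * (n % L)) := by
    intro n
    conv_lhs => rw [← Nat.div_add_mod n L]
    rw [mul_add, pow_add, ← mul_assoc, pow_mul, hx, one_pow, one_mul]
  rw [key i, key j, hij]

/-- Euler's congruence modulo `N`, and modulo `2 N` for even `N`, after squaring. -/
theorem eps_mul_dvd_pow_sub_one {N q : ℕ} (hqN : Nat.Coprime q N) :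
    (((if Even N then 2 else 1 : ℕ) * N : ℕ) : ℤ) ∣ (q : ℤ) ^ (2 * Nat.totient N) - 1 := by
  have h1 : (N : ℤ) ∣ (q : ℤ) ^ Nat.totient N - 1 := by
    have h := (Nat.modEq_iff_dvd.mp (Nat.ModEq.pow_totient hqN).symm)
    push_cast at h
    exact h
  obtain ⟨u, hu⟩ := h1
  have e : (q : ℤ) ^ (2 * Nat.totient N) - 1 = (N : ℤ) * u * ((N : ℤ) * u + 2) := by
    have : (q : ℤ) ^ Nat.totient N = (N : ℤ) * u + 1 := by linarith
    rw [mul_comm 2, pow_mul, this]
    ring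
  rw [e]
  split_ifs with hN
  · obtain ⟨m, hm⟩ := hN
    refine ⟨u * ((m : ℤ) * u + 1), ?_⟩
    push_cast
    rw [hm]
    push_cast
    ring
  · refine ⟨u * ((N : ℤ) * u + 2), ?_⟩
    push_cast
    ring

/-- **IHARA-T2**: existence of `σ`, `t` and of the exponent `i`. -/
theorem exists_sigma {N q r : ℕ} (hN : 0 < N) (hq : q.Prime) (hqN : ¬ q ∣ N) (hr : r.Prime)
    (hrq : r ≠ q) (hrN : Nat.Coprime r N)
    (L : ℕ) (hL : r = 2 * L + 1) (hLodd : Odd L) (hLN : Nat.Coprime L (N * Nat.totient N))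
    (s : ZMod r) (hs : s ≠ 0) (j₀ : ℕ) :
    ∃ (σ t : ℤ) (i : ℕ), σ ≡ 2 [ZMOD N] ∧ (σ : ZMod r) = s ∧ IsCoprime (q : ℤ) σ ∧
      (q : ℤ) ^ (2 * i) = 1 + σ * t ∧ t ≡ 0 [ZMOD N] ∧
      (q : ZMod r) ^ (2 * i) = (q : ZMod r) ^ (2 * j₀) := by
  have : Fact r.Prime := ⟨hr⟩
  have hLpos : 0 < L := hLodd.pos
  have : NeZero L := ⟨hLpos.ne'⟩
  have hr3 : 3 ≤ r := by omega
  have hqN' : Nat.Coprime q N := (Nat.Prime.coprime_iff_not_dvd hq).2 hqN
  -- the two case-dependent constants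
  obtain ⟨ε, c, hεdef, hεc, hε12, hcN, hε2⟩ :
      ∃ ε c : ℕ, ε = (if Even N then 2 else 1) ∧ ε * c = 2 ∧ (ε = 1 ∨ ε = 2) ∧
        Nat.Coprime c N ∧ (ε = 2 → Even N) := by
    by_cases hN2 : Even N
    · exact ⟨2, 1, by rw [if_pos hN2], rfl, Or.inr rfl, Nat.coprime_one_left N, fun _ => hN2⟩
    · refine ⟨1, 2, by rw [if_neg hN2], rfl, Or.inl rfl, ?_, fun h => absurd h (by decide)⟩
      exact (Nat.Prime.coprime_iff_not_dvd Nat.prime_two).2
        (fun h => hN2 (even_iff_two_dvd.2 h))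
  -- `ε` is a unit modulo `r`
  have hεr : (ε : ZMod r) ≠ 0 := by
    rw [Ne, ZMod.natCast_eq_zero_iff]
    intro h
    have := Nat.le_of_dvd (by rcases hε12 with h1 | h1 <;> omega) h
    rcases hε12 with h1 | h1 <;> omega
  -- the class of `σ'` modulo `r`
  set u : ZMod r := s * (ε : ZMod r)⁻¹ with hu
  have hu0 : u ≠ 0 := mul_ne_zero hs (inv_ne_zero hεr)
  have hur : Nat.Coprime u.val r := by
    refine Nat.Coprime.symm ((Nat.Prime.coprime_iff_not_dvd hr).2 fun h => hu0 ?_)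
    have h0 : u.val = 0 := Nat.eq_zero_of_dvd_of_lt h (ZMod.val_lt u)
    exact (ZMod.val_eq_zero u).1 h0
  -- Chinese remainder theorem
  have hNL : Nat.Coprime N L := (Nat.Coprime.coprime_mul_right_right hLN).symm
  have hφL : Nat.Coprime (Nat.totient N) L := (Nat.Coprime.coprime_mul_left_right hLN).symm
  have hrL : Nat.Coprime r L :=
    (Nat.Prime.coprime_iff_not_dvd hr).2 fun h => by
      have := Nat.le_of_dvd hLpos h
      omega
  obtain ⟨k₁, hk₁N, hk₁r⟩ := Nat.chineseRemainder hrN.symm c u.val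
  obtain ⟨k, hkNr, hkL⟩ := Nat.chineseRemainder (Nat.Coprime.mul_left hNL hrL) k₁ 2
  have hkN : k ≡ c [MOD N] := (Nat.ModEq.of_mul_right r hkNr).trans hk₁N
  have hkr : k ≡ u.val [MOD r] := (Nat.ModEq.of_mul_left N hkNr).trans hk₁r
  have h2L : Nat.Coprime 2 L :=
    (Nat.Prime.coprime_iff_not_dvd Nat.prime_two).2 fun h =>
      (Nat.not_even_iff_odd.2 hLodd) (even_iff_two_dvd.2 h)
  have hkcop : Nat.Coprime k (N * r * L) := by
    refine Nat.Coprime.mul_right (Nat.Coprime.mul_right ?_ ?_) ?_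
    · rw [Nat.Coprime, hkN.gcd_eq]; exact hcN
    · rw [Nat.Coprime, hkr.gcd_eq]; exact hur
    · rw [Nat.Coprime, hkL.gcd_eq]; exact h2L
  -- Dirichlet's theorem
  obtain ⟨σ', hσgt, hσp, hσmod⟩ := Nat.forall_exists_prime_gt_and_modEq (q + N + 2)
    (q := N * r * L) (a := k) (by positivity) hkcop
  have hσN : σ' ≡ c [MOD N] :=
    (Nat.ModEq.of_mul_right r (Nat.ModEq.of_mul_right L hσmod)).trans hkN
  have hσr : σ' ≡ u.val [MOD r] :=
    (Nat.ModEq.of_mul_left N (Nat.ModEq.of_mul_right L hσmod)).trans hkr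
  have hσL : σ' ≡ 2 [MOD L] := (Nat.ModEq.of_mul_left (N * r) hσmod).trans hkL
  have hqσ : Nat.Coprime q σ' := (Nat.coprime_primes hq hσp).2 (by omega)
  -- the exponent
  have hσ1L : Nat.Coprime (σ' - 1) L := by
    have h1 : σ' - 1 ≡ 1 [MOD L] := by
      have h2 : (σ' - 1) + 1 ≡ 1 + 1 [MOD L] := by
        have : σ' - 1 + 1 = σ' := by omega
        rw [this]
        exact hσL
      exact Nat.ModEq.add_right_cancel' 1 h2
    rw [Nat.Coprime, h1.gcd_eq]
    exact Nat.coprime_one_left L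
  set e : ℕ := (σ' - 1) * Nat.totient N with he
  have heL : Nat.Coprime e L := Nat.Coprime.mul_left hσ1L hφL
  set j : ℕ := (((e : ZMod L))⁻¹ * (j₀ : ZMod L)).val with hj
  set i : ℕ := e * j with hi
  have hij : i ≡ j₀ [MOD L] := by
    rw [← ZMod.natCast_eq_natCast_iff, hi, Nat.cast_mul, hj, ZMod.natCast_zmod_val, ← mul_assoc,
      ZMod.coe_mul_inv_eq_one e heL, one_mul]
  have hqr : (q : ZMod r) ≠ 0 := by
    rw [Ne, ZMod.natCast_eq_zero_iff]
    exact fun h => hrq ((Nat.prime_dvd_prime_iff_eq hr hq).1 h)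
  have hq2L : (q : ZMod r) ^ (2 * L) = 1 := by
    have h := ZMod.pow_card_sub_one_eq_one hqr
    have : r - 1 = 2 * L := by omega
    rwa [this] at h
  -- divisibilities
  have hd1 : (σ' : ℤ) ∣ (q : ℤ) ^ (2 * i) - 1 := by
    have h1 : (σ' : ℤ) ∣ (q : ℤ) ^ (σ' - 1) - 1 := by
      have h := Nat.modEq_iff_dvd.mp (Nat.ModEq.pow_totient hqσ).symm
      rw [Nat.totient_prime hσp] at h
      push_cast at h
      exact h
    have h2 : 2 * i = (σ' - 1) * (2 * (Nat.totient N * j)) := by rw [hi, he]; ring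
    rw [h2, pow_mul]
    have h3 := sub_dvd_pow_sub_pow ((q : ℤ) ^ (σ' - 1)) 1 (2 * (Nat.totient N * j))
    rw [one_pow] at h3
    exact h1.trans h3
  have hd2 : ((ε * N : ℕ) : ℤ) ∣ (q : ℤ) ^ (2 * i) - 1 := by
    have h1 := eps_mul_dvd_pow_sub_one hqN'
    rw [← hεdef] at h1
    have h2 : 2 * i = (2 * Nat.totient N) * ((σ' - 1) * j) := by rw [hi, he]; ring
    rw [h2, pow_mul]
    have h3 := sub_dvd_pow_sub_pow ((q : ℤ) ^ (2 * Nat.totient N)) 1 ((σ' - 1) * j)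
    rw [one_pow] at h3
    exact h1.trans h3
  have hσεN : Nat.Coprime σ' (ε * N) := by
    refine (Nat.Prime.coprime_iff_not_dvd hσp).2 fun h => ?_
    rcases (Nat.Prime.dvd_mul hσp).1 h with h' | h'
    · have := Nat.le_of_dvd (by rcases hε12 with h1 | h1 <;> omega) h'
      rcases hε12 with h1 | h1 <;> omega
    · have := Nat.le_of_dvd hN h'
      omega
  have hd : (σ' : ℤ) * ((ε * N : ℕ) : ℤ) ∣ (q : ℤ) ^ (2 * i) - 1 :=
    IsCoprime.mul_dvd (Nat.isCoprime_iff_coprime.2 hσεN) hd1 hd2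
  obtain ⟨w, hw⟩ := hd
  -- conclusion
  refine ⟨((ε * σ' : ℕ) : ℤ), (N : ℤ) * w, i, ?_, ?_, ?_, ?_, ?_, ?_⟩
  · have h : ε * σ' ≡ ε * c [MOD N] := Nat.ModEq.mul_left ε hσN
    rw [hεc] at h
    exact_mod_cast (Int.natCast_modEq_iff.2 h)
  · have h1 : (σ' : ZMod r) = u := by
      rw [← ZMod.natCast_zmod_val u]
      exact (ZMod.natCast_eq_natCast_iff σ' u.val r).2 hσr
    rw [Int.cast_natCast, Nat.cast_mul, h1, hu, mul_comm s, ← mul_assoc, mul_inv_cancel₀ hεr,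
      one_mul]
  · refine Nat.isCoprime_iff_coprime.2 (Nat.Coprime.mul_right ?_ hqσ)
    rcases hε12 with h1 | h1
    · rw [h1]; exact Nat.coprime_one_right q
    · rw [h1]
      refine (Nat.coprime_primes hq Nat.prime_two).2 fun hq2 => hqN ?_
      rw [hq2]
      exact even_iff_two_dvd.1 (hε2 h1)
  · have : (q : ℤ) ^ (2 * i) = 1 + (σ' : ℤ) * ((ε * N : ℕ) : ℤ) * w := by linarith
    rw [this]
    push_cast
    ring
  · exact Int.modEq_zero_iff_dvd.2 (dvd_mul_right _ _)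
  · exact pow_two_mul_eq_of_modEq _ hq2L hij

end Fermat.Agent.S41.Ihara
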