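import Fermat.Agent.S41.Ihara.HFun
import Fermat.Agent.S41.Ihara.Sigma

set_option autoImplicit false

namespace Fermat.Agent.S41.Ihara

variable {N q : ℕ} {V : Type*} [AddCommGroup V] {S : ℤ → ℤ → V} {κ : V}

/-- `N r ∣ a d - 1` for the lifts of two inverse residues. -/
theorem exists_mul_sub_eq_one {N r : ℕ} (hr : r.Prime) (hrN : Nat.Coprime r N) {a d : ℤ}
    (ha : a ≡ 1 [ZMOD N]) (hd : d ≡ 1 [ZMOD N]) (h : (a : ZMod r) * (d : ZMod r) = 1) :
    ∃ c : ℤ, a * d - (N : ℤ) * r * c = 1 := by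
  have h1 : (N : ℤ) ∣ a * d - 1 := by
    have := ha.mul hd
    rw [one_mul] at this
    exact (Int.modEq_iff_dvd.mp this.symm)
  have h2 : (r : ℤ) ∣ a * d - 1 := by
    rw [← ZMod.intCast_zmod_eq_zero_iff_dvd]
    push_cast
    rw [h]; ring
  have hcop : IsCoprime (N : ℤ) (r : ℤ) := by
    exact_mod_cast (Nat.isCoprime_iff_coprime.mpr hrN.symm)
  obtain ⟨k, hk⟩ := hcop.mul_dvd h1 h2
  exact ⟨k, by linarith⟩

/-- The Möbius invariance (c) of the function `hfun`. -/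
theorem IsIharaSymbol.hfun_mobius (hS : IsIharaSymbol N q S κ) (hN : 0 < N) (hq : q.Prime)
    (hqN : ¬ q ∣ N) {r : ℕ} (hr : r.Prime) (hrq : r ≠ q) (hrN : Nat.Coprime r N)
    (L : ℕ) (hL : r = 2 * L + 1) (hLodd : Odd L) (hLN : Nat.Coprime L (N * Nat.totient N))
    (hqr : Nat.Coprime q r) (j₀ : ℕ) (x y g : (ZMod r)ˣ)
    (h1 : ((x * y : (ZMod r)ˣ) : ZMod r) + 1 ≠ 0)
    (h2 : (g : ZMod r) * (((x * y : (ZMod r)ˣ) : ZMod r) + 1)
      = ((ZMod.unitOfCoprime q hqr ^ (2 * j₀) * x * y : (ZMod r)ˣ) : ZMod r) + 1) :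
    hfun N r S (g * x) + hfun N r S (y * g⁻¹) = hfun N r S x + hfun N r S y := by
  have : Fact r.Prime := ⟨hr⟩
  have hNr := natCast_ne_zero_of_coprime hr hrN
  have hqN' : Nat.Coprime q N := (Nat.Prime.coprime_iff_not_dvd hq).mpr hqN
  have hqNz : IsCoprime (q : ℤ) (N : ℤ) := by exact_mod_cast Nat.isCoprime_iff_coprime.mpr hqN'
  have hqrz : IsCoprime (q : ℤ) (r : ℤ) := by exact_mod_cast Nat.isCoprime_iff_coprime.mpr hqr
  -- residues
  set X : ZMod r := (x : ZMod r) with hX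
  set Y : ZMod r := (y : ZMod r) with hY
  set G : ZMod r := (g : ZMod r) with hG
  set Xi : ZMod r := ((x⁻¹ : (ZMod r)ˣ) : ZMod r) with hXi
  set w₀ : ZMod r := (q : ZMod r) ^ (2 * j₀) with hw₀
  have hXXi : X * Xi = 1 := by rw [hX, hXi, ← Units.val_mul, mul_inv_cancel, Units.val_one]
  have hX0 : X ≠ 0 := x.ne_zero
  have hG0 : G ≠ 0 := g.ne_zero
  have h1' : X * Y + 1 ≠ 0 := by simpa [hX, hY] using h1
  have h2' : G * (X * Y + 1) = w₀ * X * Y + 1 := by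
    simpa [hX, hY, hG, hw₀, ZMod.coe_unitOfCoprime] using h2
  set s : ZMod r := Y + Xi with hs
  have hsX : s * X = X * Y + 1 := by rw [hs, add_mul, mul_comm Xi X, hXXi]; ring
  have hs0 : s ≠ 0 := by
    intro h0; rw [h0, zero_mul] at hsX; exact h1' hsX.symm
  obtain ⟨σ, t, i, hσN, hσr, hqσ, hw, htN, hpow⟩ :=
    exists_sigma hN hq hqN hr hrq hrN L hL hLodd hLN s hs0 j₀
  set w : ℤ := (q : ℤ) ^ (2 * i) with hwdef
  have hwN : w ≡ 1 [ZMOD N] := by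
    rw [hw]
    have := (Int.ModEq.refl σ).mul htN
    have h3 : σ * t ≡ 0 [ZMOD N] := by simpa using this
    simpa using (Int.ModEq.refl 1).add h3
  have hwr : (w : ZMod r) = w₀ := by
    rw [hwdef, hw₀]; push_cast; exact hpow
  have hwr' : w₀ = 1 + s * (t : ZMod r) := by
    rw [← hwr, hw]; push_cast; rw [hσr]
  -- the first pair
  set a₂ := lift N r X with ha₂
  set d₂ := lift N r Xi with hd₂
  have ha₂N : a₂ ≡ 1 [ZMOD N] := lift_modEq N r _
  have hd₂N : d₂ ≡ 1 [ZMOD N] := lift_modEq N r _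
  have ha₂r : (a₂ : ZMod r) = X := lift_cast hNr _
  have hd₂r : (d₂ : ZMod r) = Xi := lift_cast hNr _
  obtain ⟨c₂, hc₂⟩ := exists_mul_sub_eq_one hr hrN ha₂N hd₂N (by rw [ha₂r, hd₂r, hXXi])
  set a₁ := σ - d₂ with ha₁
  have ha₁N : a₁ ≡ 1 [ZMOD N] := by
    have := hσN.sub hd₂N
    simpa using this
  have ha₁r : (a₁ : ZMod r) = Y := by
    rw [ha₁]; push_cast; rw [hσr, hd₂r, hs]; ring
  have hY0 : Y ≠ 0 := y.ne_zero
  have hcop₁ : IsCoprime a₁ ((N : ℤ) * r) :=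
    isCoprime_mul_of_modEq_one hr ha₁N (by rw [ha₁r]; exact hY0)
  have hprod := hS.prod a₁ a₂ d₂ c₂ r hcop₁ hc₂
  have hsum : a₁ + d₂ = σ := by rw [ha₁]; ring
  rw [hsum] at hprod
  -- multiply by the unit
  have hΛN : a₂ * σ - 1 ≡ 1 [ZMOD N] := by
    have := (ha₂N.mul hσN).sub (Int.ModEq.refl 1)
    simpa using this
  have hΛr : ((a₂ * σ - 1 : ℤ) : ZMod r) = X * Y := by
    push_cast; rw [ha₂r, hσr, mul_comm X s, hsX]; ring
  have hXY0 : X * Y ≠ 0 := mul_ne_zero hX0 hY0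
  have hcopΛ : IsCoprime (a₂ * σ - 1) ((N : ℤ) * (r * σ)) := by
    rw [← mul_assoc]
    refine IsCoprime.mul_right (isCoprime_mul_of_modEq_one hr hΛN (by rw [hΛr]; exact hXY0)) ?_
    exact ⟨-1, a₂, by ring⟩
  have hmul := hS.mulq_pow hqNz (a₂ * σ - 1) (r * σ) hcopΛ (hqrz.mul_right hqσ) i
  -- the second pair
  set a₂' := w * a₂ - t with ha₂'
  rw [← hwdef] at hmul
  have e₁ : w * (a₂ * σ - 1) = a₂' * σ - 1 := by
    rw [ha₂', hw]; ring
  have ha₂'N : a₂' ≡ 1 [ZMOD N] := by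
    have := (hwN.mul ha₂N).sub htN
    simpa using this
  have ha₂'r : (a₂' : ZMod r) = G * X := by
    have e : ((a₂' : ℤ) : ZMod r) * s = G * X * s := by
      rw [ha₂']; push_cast; rw [hwr, ha₂r]
      have e2 : G * X * s = G * (X * Y + 1) := by rw [mul_assoc, mul_comm X s, hsX]
      rw [e2, h2']
      have e3 : (w₀ * X - (t : ZMod r)) * s = w₀ * (s * X) - s * (t : ZMod r) := by ring
      rw [e3, hsX]
      have e4 : s * (t : ZMod r) = w₀ - 1 := by rw [hwr']; ring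
      rw [e4]; ring
    exact mul_right_cancel₀ hs0 e
  set GXi : ZMod r := (((g * x)⁻¹ : (ZMod r)ˣ) : ZMod r) with hGXi
  have hGX : G * X * GXi = 1 := by
    rw [hG, hX, hGXi, ← Units.val_mul, ← Units.val_mul, mul_inv_cancel, Units.val_one]
  set d₂' := lift N r GXi with hd₂'
  have hd₂'N : d₂' ≡ 1 [ZMOD N] := lift_modEq N r _
  have hd₂'r : (d₂' : ZMod r) = GXi := lift_cast hNr _
  obtain ⟨c₂', hc₂'⟩ := exists_mul_sub_eq_one hr hrN ha₂'N hd₂'N (by rw [ha₂'r, hd₂'r, hGX])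
  set a₁' := σ - d₂' with ha₁'
  have ha₁'N : a₁' ≡ 1 [ZMOD N] := by
    have := hσN.sub hd₂'N
    simpa using this
  set Gi : ZMod r := ((g⁻¹ : (ZMod r)ˣ) : ZMod r) with hGi
  have hGGi : G * Gi = 1 := by rw [hG, hGi, ← Units.val_mul, mul_inv_cancel, Units.val_one]
  have ha₁'r : (a₁' : ZMod r) = w₀ * (Y * Gi) := by
    have hGX0 : G * X ≠ 0 := mul_ne_zero hG0 hX0
    have e : ((a₁' : ℤ) : ZMod r) * (G * X) = w₀ * (Y * Gi) * (G * X) := by
      rw [ha₁']; push_cast; rw [hσr, hd₂'r]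
      have e2 : (s - GXi) * (G * X) = G * (s * X) - G * X * GXi := by ring
      rw [e2, hsX, hGX, h2']
      have e3 : w₀ * (Y * Gi) * (G * X) = w₀ * X * Y * (G * Gi) := by ring
      rw [e3, hGGi]; ring
    exact mul_right_cancel₀ hGX0 e
  have hcop₁' : IsCoprime a₁' ((N : ℤ) * r) := by
    refine isCoprime_mul_of_modEq_one hr ha₁'N ?_
    rw [ha₁'r]
    have hGi0 : Gi ≠ 0 := (g⁻¹).ne_zero
    have hw₀0 : w₀ ≠ 0 := by
      rw [hw₀]
      refine pow_ne_zero _ ?_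
      rw [← ZMod.coe_unitOfCoprime q hqr]
      exact (ZMod.unitOfCoprime q hqr).ne_zero
    exact mul_ne_zero hw₀0 (mul_ne_zero hY0 hGi0)
  have hprod' := hS.prod a₁' a₂' d₂' c₂' r hcop₁' hc₂'
  have hsum' : a₁' + d₂' = σ := by rw [ha₁']; ring
  rw [hsum', ← e₁, hmul, ← hprod] at hprod'
  -- translate to `hfun`
  have E1 : S a₁ r = hfun N r S y := hS.eq_hfun hr hrN ha₁N y ha₁r
  have E2 : S a₂ r = hfun N r S x := hS.eq_hfun hr hrN ha₂N x ha₂r
  have E3 : S a₂' r = hfun N r S (g * x) :=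
    hS.eq_hfun hr hrN ha₂'N (g * x) (by rw [ha₂'r, Units.val_mul])
  have E4 : S a₁' r = hfun N r S (ZMod.unitOfCoprime q hqr ^ (2 * i) * (y * g⁻¹)) := by
    refine hS.eq_hfun hr hrN ha₁'N _ ?_
    rw [ha₁'r, Units.val_mul, Units.val_pow_eq_pow_val, ZMod.coe_unitOfCoprime, Units.val_mul,
      hpow]
  have E5 := hS.hfun_pow_mul hqN' hr hrN hqr i hwN (y * g⁻¹)
  rw [E1, E2, E3, E4, E5] at hprod'
  have e : hfun N r S (g * x) + hfun N r S (y * g⁻¹) - (hfun N r S x + hfun N r S y)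
      = (hfun N r S (y * g⁻¹) + i • κ + hfun N r S (g * x))
        - (hfun N r S y + hfun N r S x + i • κ) := by abel
  rw [hprod', sub_self] at e
  exact sub_eq_zero.mp e

end Fermat.Agent.S41.Ihara
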