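import Fermat.Agent.S41.Ihara.Mobius
import Fermat.Agent.S41.Ihara.FiniteLemma

set_option autoImplicit false

namespace Fermat.Agent.S41.Ihara

variable {N q : ℕ} {V : Type*} [AddCommGroup V] {S : ℤ → ℤ → V} {κ : V}

theorem int_pow_totient_modEq {N q : ℕ} (hqN : Nat.Coprime q N) (n : ℕ) :
    (q : ℤ) ^ (2 * (Nat.totient N * n)) ≡ 1 [ZMOD N] := by
  have h1 : q ^ Nat.totient N ≡ 1 [MOD N] := Nat.ModEq.pow_totient hqN
  have h2 : ((q ^ Nat.totient N : ℕ) : ℤ) ≡ ((1 : ℕ) : ℤ) [ZMOD N] :=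
    Int.natCast_modEq_iff.mpr h1
  have h3 := h2.pow (2 * n)
  have e : (q : ℤ) ^ (2 * (Nat.totient N * n)) = ((q ^ Nat.totient N : ℕ) : ℤ) ^ (2 * n) := by
    push_cast; rw [← pow_mul]; congr 1; ring
  rw [e]
  simpa using h3

/-- The square of `q^(2 φ(N))` is not `1` in `(ZMod r)ˣ`. -/
theorem unit_pow_ne_one {N q r L : ℕ} (hr : r.Prime) (hL : r = 2 * L + 1) (hLodd : Odd L)
    (hLN : Nat.Coprime L (N * Nat.totient N)) (hqr : Nat.Coprime q r) (hq1 : 1 < q)
    (hrq : q ^ 2 < r) :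
    (ZMod.unitOfCoprime q hqr ^ (2 * Nat.totient N)) ^ 2 ≠ 1 := by
  have : Fact r.Prime := ⟨hr⟩
  intro h
  set u := ZMod.unitOfCoprime q hqr with hu
  have h1 : u ^ (2 * (Nat.totient N * 2)) = 1 := by
    rw [← h, ← pow_mul]; congr 1; ring
  have h2 : u ^ (2 * L) = 1 := by
    have h0 := ZMod.units_pow_card_sub_one_eq_one r u
    have e : r - 1 = 2 * L := by omega
    rw [e] at h0
    exact h0
  have h3 : u ^ Nat.gcd (2 * (Nat.totient N * 2)) (2 * L) = 1 := pow_gcd_eq_one.mpr ⟨h1, h2⟩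
  have hcop : Nat.Coprime (Nat.totient N * 2) L := by
    refine Nat.Coprime.mul_left ?_ ?_
    · exact (Nat.Coprime.coprime_mul_left_right hLN).symm
    · exact (Nat.coprime_two_left.mpr hLodd)
  rw [Nat.gcd_mul_left, hcop.gcd_eq_one, mul_one] at h3
  have h4 : ((q : ZMod r)) ^ 2 = 1 := by
    have := congrArg (fun v : (ZMod r)ˣ => (v : ZMod r)) h3
    simpa [hu, ZMod.coe_unitOfCoprime] using this
  have h5 : ((q ^ 2 - 1 : ℕ) : ZMod r) = 0 := by
    have hq2 : 1 ≤ q ^ 2 := Nat.one_le_pow _ _ (by omega)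
    rw [Nat.cast_sub hq2]; push_cast; rw [h4]; ring
  rw [ZMod.natCast_eq_zero_iff] at h5
  have hpos : 0 < q ^ 2 - 1 := by
    have : 1 < q ^ 2 := Nat.one_lt_pow (by norm_num) hq1
    omega
  have := Nat.le_of_dvd hpos h5
  omega

/-- MAIN CLAIM: for a good prime `r`, the symbol `S a r` vanishes for `a ≡ 1 mod N`. -/
theorem IsIharaSymbol.eq_zero_of_prime (hS : IsIharaSymbol N q S κ) (hN : 0 < N) (hq : q.Prime)
    (hqN : ¬ q ∣ N) {p : ℕ} (hp : p.Prime) (hp2 : p ≠ 2) (hV : ∀ v : V, p • v = 0)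
    {r L : ℕ} (hr : r.Prime) (hL : r = 2 * L + 1)
    (hM : 2 * N * Nat.totient N * p ∣ L + 1) (hrq : q ^ 2 < r)
    {a : ℤ} (ha : a ≡ 1 [ZMOD N]) (har : (a : ZMod r) ≠ 0) : S a r = 0 := by
  have : Fact r.Prime := ⟨hr⟩
  -- consequences of the congruence on `r`
  have hLodd : Odd L := by
    have h2 : 2 ∣ L + 1 := Dvd.dvd.trans ⟨N * Nat.totient N * p, by ring⟩ hM
    rcases Nat.even_or_odd L with he | ho
    · exfalso
      have : ¬ Even (L + 1) := by rw [Nat.even_add_one]; simpa using he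
      exact this (even_iff_two_dvd.mpr h2)
    · exact ho
  have hLL : Nat.Coprime L (L + 1) := by simp
  have hLN : Nat.Coprime L (N * Nat.totient N) :=
    Nat.Coprime.coprime_dvd_right (Dvd.dvd.trans ⟨2 * p, by ring⟩ hM) hLL
  have hLp : Nat.Coprime L p :=
    Nat.Coprime.coprime_dvd_right (Dvd.dvd.trans ⟨2 * N * Nat.totient N, by ring⟩ hM) hLL
  have hrN : Nat.Coprime r N := by
    have hNr1 : N ∣ r + 1 := by
      have h1 : N ∣ L + 1 := Dvd.dvd.trans ⟨2 * Nat.totient N * p, by ring⟩ hM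
      have : r + 1 = 2 * (L + 1) := by omega
      rw [this]; exact Dvd.dvd.mul_left h1 2
    have : Nat.Coprime r (r + 1) := by simp
    exact Nat.Coprime.coprime_dvd_right hNr1 this
  have hq1 : 1 < q := hq.one_lt
  have hrq' : r ≠ q := by
    have : q ≤ q ^ 2 := Nat.le_self_pow (by norm_num) q
    omega
  have hqr : Nat.Coprime q r := (Nat.coprime_primes hq hr).mpr (Ne.symm hrq')
  have hqN' : Nat.Coprime q N := (Nat.Prime.coprime_iff_not_dvd hq).mpr hqN
  have hcop_p : Nat.Coprime (r - 1) p := by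
    have : r - 1 = 2 * L := by omega
    rw [this]
    refine Nat.Coprime.mul_left ?_ hLp
    exact (Nat.coprime_primes Nat.prime_two hp).mpr (Ne.symm hp2)
  -- the function and its properties
  have h1' : hfun N r S 1 = 0 := by
    have := hS.eq_hfun hr hrN (a := 1) (Int.ModEq.refl 1) 1 (by simp)
    rw [← this]; exact hS.one r
  set h := hfun N r S with hh
  set u := ZMod.unitOfCoprime q hqr with hu
  set w₀ := u ^ (2 * Nat.totient N) with hw₀
  have hw₀2 : w₀ ^ 2 ≠ 1 := unit_pow_ne_one hr hL hLodd hLN hqr hq1 hrq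
  have h1 : h 1 = 0 := h1'
  have hb0 : ∀ n : ℕ, ∀ x, h (w₀ ^ n * x) = h x + (Nat.totient N * n) • κ := by
    intro n x
    have := hS.hfun_pow_mul hqN' hr hrN hqr (Nat.totient N * n) (int_pow_totient_modEq hqN' n) x
    have e : w₀ ^ n = u ^ (2 * (Nat.totient N * n)) := by
      rw [hw₀, ← pow_mul]; congr 1; ring
    rw [e]; exact this
  have hb : ∀ w ∈ Subgroup.zpowers w₀, ∀ x, h (w * x) = h x + h w := by
    intro w hw x
    obtain ⟨n, rfl⟩ := (isOfFinOrder_of_finite w₀).mem_powers_iff_mem_zpowers.mpr hw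
    have e1 := hb0 n x
    have e2 := hb0 n 1
    rw [mul_one, h1, zero_add] at e2
    rw [e1, e2]
  have hw₀1 : w₀ ≠ 1 := by
    intro h0; apply hw₀2; rw [h0, one_pow]
  have hW3 : 3 ≤ Nat.card (Subgroup.zpowers w₀) := by
    rw [Nat.card_zpowers]
    have hpos : 0 < orderOf w₀ := orderOf_pos w₀
    by_contra hlt
    have hle : orderOf w₀ ≤ 2 := by omega
    have hdvd : orderOf w₀ ∣ 2 := by
      interval_cases (orderOf w₀) <;> simp
    exact hw₀2 (orderOf_dvd_iff_pow_eq_one.mp hdvd)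
  have hc : ∀ x y g : (ZMod r)ˣ, ((x * y : (ZMod r)ˣ) : ZMod r) + 1 ≠ 0 →
      (g : ZMod r) * (((x * y : (ZMod r)ˣ) : ZMod r) + 1)
        = ((w₀ * x * y : (ZMod r)ˣ) : ZMod r) + 1 →
      h (g * x) + h (y * g⁻¹) = h x + h y := by
    intro x y g hxy hg
    exact hS.hfun_mobius hN hq hqN hr hrq' hrN L hL hLodd hLN hqr (Nat.totient N) x y g hxy hg
  have hhom := hom_of_mobius_invariance h h1 (Subgroup.zpowers w₀) hW3 hb w₀
    (Subgroup.mem_zpowers w₀) hw₀1 hc
  -- a homomorphism from a group of order prime to `p` into a `p`-torsion group vanishes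
  have hpow : ∀ (x : (ZMod r)ˣ) (n : ℕ), h (x ^ n) = n • h x := by
    intro x n
    induction n with
    | zero => simp [h1]
    | succ n ih => rw [pow_succ, hhom, ih, succ_nsmul]
  have hzero : ∀ x : (ZMod r)ˣ, h x = 0 := by
    intro x
    have e1 : (r - 1) • h x = 0 := by
      rw [← hpow, ZMod.units_pow_card_sub_one_eq_one, h1]
    have e2 : p • h x = 0 := hV _
    have hcz : IsCoprime ((r - 1 : ℕ) : ℤ) (p : ℤ) := Nat.isCoprime_iff_coprime.mpr hcop_p
    obtain ⟨c, d, hcd⟩ := hcz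
    have e3 : h x = (c * ((r - 1 : ℕ) : ℤ) + d * (p : ℤ)) • h x := by rw [hcd, one_zsmul]
    rw [e3, add_zsmul, mul_zsmul, mul_zsmul, natCast_zsmul, natCast_zsmul, e1, e2]
    simp
  have := hS.eq_hfun hr hrN ha (Units.mk0 (a : ZMod r) har) rfl
  rw [this]
  exact hzero _

end Fermat.Agent.S41.Ihara
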