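import Fermat.Agent.S41.Ihara.PrimeCase

/-!
# S41 / Ihara's lemma, elementary form: reduction to the prime case

`IsIharaSymbol.eq_zero` : a symbol with values in a `p`-torsion group (`p` odd) vanishes on all
pairs `(a, b)` with `a ≡ 1 mod N`.  Two applications of Dirichlet's theorem reduce the statement
to `IsIharaSymbol.eq_zero_of_prime`.
-/

set_option autoImplicit false

namespace Fermat.Agent.S41.Ihara

variable {N q : ℕ} {V : Type*} [AddCommGroup V] {S : ℤ → ℤ → V} {κ : V}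

/-- Reduction step, case `b ≠ 0`. -/
theorem IsIharaSymbol.eq_zero_of_ne_zero (hS : IsIharaSymbol N q S κ) (hN : 0 < N)
    (hq : q.Prime) (hqN : ¬ q ∣ N) {p : ℕ} (hp : p.Prime) (hp2 : p ≠ 2)
    (hV : ∀ v : V, p • v = 0) (a b : ℤ) (hab : IsCoprime a ((N : ℤ) * b))
    (ha : a ≡ 1 [ZMOD N]) (hb : b ≠ 0) : S a b = 0 := by
  -- the modulus
  obtain ⟨M, hM⟩ : ∃ M : ℕ, M = 4 * N * Nat.totient N * p := ⟨_, rfl⟩
  have hMpos : 0 < M := by
    have h1 := Nat.totient_pos.mpr hN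
    have h2 := hp.pos
    rw [hM]; positivity
  -- first Dirichlet: a prime `a' ≡ a mod N |b|`
  have hNb : N * b.natAbs ≠ 0 := by
    have := Int.natAbs_pos.mpr hb
    positivity
  have hdvd1 : (N : ℤ) * b ∣ ((N * b.natAbs : ℕ) : ℤ) := by
    push_cast
    exact mul_dvd_mul_left _ ((dvd_abs b b).mpr dvd_rfl)
  have hdvd2 : ((N * b.natAbs : ℕ) : ℤ) ∣ (N : ℤ) * b := by
    push_cast
    exact mul_dvd_mul_left _ ((abs_dvd b b).mpr dvd_rfl)
  have hcop1 : IsCoprime a ((N * b.natAbs : ℕ) : ℤ) := hab.of_isCoprime_of_dvd_right hdvd2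
  obtain ⟨a', ha'M, ha'prime, ha'mod⟩ := Nat.forall_exists_prime_gt_and_zmodEq M hNb hcop1
  obtain ⟨x, hx⟩ : (N : ℤ) * b ∣ (a' : ℤ) - a := by
    have := (Int.modEq_iff_dvd.mp ha'mod.symm)
    exact hdvd1.trans this
  have ea' : (a' : ℤ) = a + (N : ℤ) * x * b := by linarith
  have hSa' : S a b = S a' b := by
    rw [ea', hS.shiftL a b x hab]
  have hab' : IsCoprime (a' : ℤ) ((N : ℤ) * b) := by
    have := hab.add_mul_left_left x
    have e : (a' : ℤ) = a + (N : ℤ) * b * x := by rw [ea']; ring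
    rw [e]; exact this
  have ha'1 : (a' : ℤ) ≡ 1 [ZMOD N] := by
    have h1 : (a' : ℤ) ≡ a [ZMOD N] := by
      rw [Int.modEq_iff_dvd]
      exact ⟨-(x * b), by rw [ea']; ring⟩
    exact h1.trans ha
  -- second Dirichlet: a prime `r ≡ b mod a'`, `r ≡ -1 mod M`
  have hcopM : IsCoprime (a' : ℤ) (M : ℤ) := by
    rw [Nat.isCoprime_iff_coprime, Nat.Prime.coprime_iff_not_dvd ha'prime]
    intro h
    have := Nat.le_of_dvd hMpos h
    omega
  obtain ⟨u, v, huv⟩ := hcopM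
  obtain ⟨c, hc⟩ : ∃ c : ℤ, c = b * (v * M) - u * a' := ⟨_, rfl⟩
  have hcb : c = b + (a' : ℤ) * (-(u * (b + 1))) := by
    rw [hc]; linear_combination b * huv
  have hc1 : c = -1 + (M : ℤ) * (v * (b + 1)) := by
    rw [hc]; linear_combination (-1 : ℤ) * huv
  have hba' : IsCoprime b (a' : ℤ) := (IsCoprime.of_mul_right_right hab').symm
  have hcopc : IsCoprime c ((a' * M : ℕ) : ℤ) := by
    push_cast
    refine IsCoprime.mul_right ?_ ?_
    · rw [hcb]; exact hba'.add_mul_left_left _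
    · rw [hc1]
      exact (isCoprime_one_left.neg_left).add_mul_left_left _
  have ha'pos : 0 < a' := ha'prime.pos
  have ha'M0 : a' * M ≠ 0 := by positivity
  obtain ⟨r, hrgt, hrprime, hrmod⟩ :=
    Nat.forall_exists_prime_gt_and_zmodEq (max (q ^ 2) a') ha'M0 hcopc
  have hrq : q ^ 2 < r := lt_of_le_of_lt (le_max_left _ _) hrgt
  have hra' : a' < r := lt_of_le_of_lt (le_max_right _ _) hrgt
  -- `r ≡ b mod a'`
  obtain ⟨y, hy⟩ : (a' : ℤ) ∣ (r : ℤ) - b := by
    have h1 : ((a' * M : ℕ) : ℤ) ∣ (r : ℤ) - c := Int.modEq_iff_dvd.mp hrmod.symm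
    have h2 : (a' : ℤ) ∣ (r : ℤ) - c := Dvd.dvd.trans ⟨(M : ℤ), by push_cast; ring⟩ h1
    have e : (r : ℤ) - b = ((r : ℤ) - c) + (a' : ℤ) * (-(u * (b + 1))) := by rw [hcb]; ring
    rw [e]
    exact dvd_add h2 (dvd_mul_right _ _)
  have er : (r : ℤ) = b + y * a' := by linarith
  have hSr : S a' r = S a' b := by
    rw [er, hS.shiftR a' b y hab']
  -- `r ≡ -1 mod M`
  have hMr : M ∣ r + 1 := by
    have h1 : ((a' * M : ℕ) : ℤ) ∣ (r : ℤ) - c := Int.modEq_iff_dvd.mp hrmod.symm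
    have h2 : (M : ℤ) ∣ (r : ℤ) - c := Dvd.dvd.trans ⟨(a' : ℤ), by push_cast; ring⟩ h1
    have e : ((r + 1 : ℕ) : ℤ) = ((r : ℤ) - c) + (M : ℤ) * (v * (b + 1)) := by
      rw [hc1]; push_cast; ring
    have h3 : (M : ℤ) ∣ ((r + 1 : ℕ) : ℤ) := by
      rw [e]; exact dvd_add h2 (dvd_mul_right _ _)
    exact Int.natCast_dvd_natCast.mp h3
  obtain ⟨k, hk⟩ := hMr
  obtain ⟨L, hL⟩ : ∃ L : ℕ, r = 2 * L + 1 := by
    refine ⟨2 * N * Nat.totient N * p * k - 1, ?_⟩
    have h1 : r + 1 = 2 * (2 * N * Nat.totient N * p * k) := by rw [hk, hM]; ring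
    have h2 : 0 < 2 * N * Nat.totient N * p * k := by
      rcases Nat.eq_zero_or_pos (2 * N * Nat.totient N * p * k) with h0 | h0
      · rw [h0] at h1; omega
      · exact h0
    omega
  have hML : 2 * N * Nat.totient N * p ∣ L + 1 := by
    refine ⟨k, ?_⟩
    have h1 : r + 1 = 2 * (2 * N * Nat.totient N * p * k) := by rw [hk, hM]; ring
    omega
  have har : ((a' : ℤ) : ZMod r) ≠ 0 := by
    rw [Int.cast_natCast, Ne, ZMod.natCast_eq_zero_iff]
    intro h
    have := Nat.le_of_dvd ha'pos h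
    omega
  have hfin := hS.eq_zero_of_prime hN hq hqN hp hp2 hV hrprime hL hML hrq ha'1 har
  rw [hSa', ← hSr, hfin]

/-- **Vanishing of the symbol**: a symbol with values in a `p`-torsion group (`p` an odd prime)
vanishes on all `(a, b)` with `a ≡ 1 mod N`. -/
theorem IsIharaSymbol.eq_zero (hS : IsIharaSymbol N q S κ) (hN : 0 < N)
    (hq : q.Prime) (hqN : ¬ q ∣ N) {p : ℕ} (hp : p.Prime) (hp2 : p ≠ 2)
    (hV : ∀ v : V, p • v = 0) (a b : ℤ) (hab : IsCoprime a ((N : ℤ) * b))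
    (ha : a ≡ 1 [ZMOD N]) : S a b = 0 := by
  by_cases hb : b = 0
  · subst hb
    have hu : IsUnit a := by
      rw [mul_zero] at hab
      exact isCoprime_zero_right.mp hab
    have ha0 : a ≠ 0 := by
      rcases Int.isUnit_iff.mp hu with h | h <;> rw [h] <;> norm_num
    have h1 : S a (0 + 1 * a) = S a 0 := hS.shiftR a 0 1 hab
    have hab' : IsCoprime a ((N : ℤ) * a) := by
      obtain ⟨w, hw⟩ := hu.exists_left_inv
      exact ⟨w, 0, by rw [zero_mul, add_zero]; exact hw⟩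
    rw [← h1, zero_add, one_mul]
    exact hS.eq_zero_of_ne_zero hN hq hqN hp hp2 hV a a hab' ha ha0
  · exact hS.eq_zero_of_ne_zero hN hq hqN hp hp2 hV a b hab ha hb

end Fermat.Agent.S41.Ihara
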