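import Mathlib
import Fermat.Agent.S41.Ihara.Defs

set_option autoImplicit false

namespace Fermat.Agent.S41.Ihara

variable {N q : ℕ} {V : Type*} [AddCommGroup V] {S : ℤ → ℤ → V} {κ : V}

/-- Iterating `mulq`. -/
theorem IsIharaSymbol.mulq_pow (hS : IsIharaSymbol N q S κ) (hqN : IsCoprime (q : ℤ) (N : ℤ))
    (a b : ℤ) (hab : IsCoprime a ((N : ℤ) * b)) (hqb : IsCoprime (q : ℤ) b) (i : ℕ) :
    S ((q : ℤ) ^ (2 * i) * a) b = S a b + i • κ := by
  induction i with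
  | zero => simp
  | succ i ih =>
    have h1 : IsCoprime ((q : ℤ) ^ (2 * i) * a) ((N : ℤ) * b) :=
      IsCoprime.mul_left (IsCoprime.pow_left (hqN.mul_right hqb)) hab
    have h2 := hS.mulq _ b h1 hqb
    have e : (q : ℤ) ^ (2 * (i + 1)) * a = (q : ℤ) ^ 2 * ((q : ℤ) ^ (2 * i) * a) := by ring
    rw [e, h2, ih, succ_nsmul, add_assoc]

/-- An integer `≡ 1 mod N` with prescribed residue modulo `r`. -/
def lift (N r : ℕ) (x : ZMod r) : ℤ := 1 + (N : ℤ) * (((x - 1) * (N : ZMod r)⁻¹).val : ℤ)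

theorem lift_modEq (N r : ℕ) (x : ZMod r) : lift N r x ≡ 1 [ZMOD N] := by
  unfold lift
  rw [Int.modEq_iff_dvd]
  exact ⟨-(((x - 1) * (N : ZMod r)⁻¹).val : ℤ), by ring⟩

theorem lift_cast {N r : ℕ} [Fact r.Prime] (hrN : (N : ZMod r) ≠ 0) (x : ZMod r) :
    ((lift N r x : ℤ) : ZMod r) = x := by
  unfold lift
  push_cast
  rw [ZMod.natCast_zmod_val]
  field_simp
  ring

theorem isCoprime_of_modEq_one {N : ℕ} {a : ℤ} (ha : a ≡ 1 [ZMOD N]) : IsCoprime a (N : ℤ) := by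
  obtain ⟨k, hk⟩ := (Int.modEq_iff_dvd.mp ha)
  exact ⟨1, k, by linarith⟩

theorem isCoprime_prime_of_cast_ne_zero {r : ℕ} (hr : r.Prime) {a : ℤ}
    (har : (a : ZMod r) ≠ 0) : IsCoprime a (r : ℤ) := by
  have h1 : ¬ (r : ℤ) ∣ a := fun h => har ((ZMod.intCast_zmod_eq_zero_iff_dvd a r).mpr h)
  exact ((Nat.prime_iff_prime_int.mp hr).irreducible.coprime_iff_not_dvd.mpr h1).symm

theorem isCoprime_mul_of_modEq_one {N r : ℕ} (hr : r.Prime) {a : ℤ} (ha : a ≡ 1 [ZMOD N])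
    (har : (a : ZMod r) ≠ 0) : IsCoprime a ((N : ℤ) * r) :=
  (isCoprime_of_modEq_one ha).mul_right (isCoprime_prime_of_cast_ne_zero hr har)

/-- The symbol `S a r` only depends on `a mod r` when `a ≡ 1 mod N`. -/
theorem IsIharaSymbol.eq_of_cast_eq (hS : IsIharaSymbol N q S κ) {r : ℕ} (hr : r.Prime)
    (hrN : Nat.Coprime r N) {a a' : ℤ} (ha : a ≡ 1 [ZMOD N]) (ha' : a' ≡ 1 [ZMOD N])
    (h : (a : ZMod r) = (a' : ZMod r)) (hne : (a : ZMod r) ≠ 0) : S a r = S a' r := by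
  have h1 : (N : ℤ) ∣ a' - a := by
    have := (ha'.trans ha.symm)
    exact (Int.modEq_iff_dvd.mp this.symm)
  have h2 : (r : ℤ) ∣ a' - a := by
    rw [← ZMod.intCast_zmod_eq_zero_iff_dvd]
    push_cast
    rw [h]; ring
  have hcop : IsCoprime (N : ℤ) (r : ℤ) := by
    exact_mod_cast (Nat.isCoprime_iff_coprime.mpr hrN.symm)
  obtain ⟨k, hk⟩ := hcop.mul_dvd h1 h2
  have e : a' = a + (N : ℤ) * k * r := by linarith
  rw [e, hS.shiftL a r k (isCoprime_mul_of_modEq_one hr ha hne)]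

end Fermat.Agent.S41.Ihara
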